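import Fermat.Agent.Curves.Along

/-!
# Affine models: integral closures of subalgebras and places
-/

set_option autoImplicit false
set_option linter.style.haveILetI false

noncomputable section

namespace Fermat.Agent.Curves

open AlgebraicCurve IntermediateField WithZero

variable {k F : Type*} [Field k] [Field F] [Algebra k F] [IsAlgClosed k] [IsFunctionField k F]

/-- Every nontrivial valuation subring of `F` containing `k` is a place. -/
theorem exists_place_of_valuationSubring (V : ValuationSubring F)
    (hkV : ∀ c : k, algebraMap k F c ∈ V) (hV : V ≠ ⊤) :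
    ∃ w : Place k F, w.toValuationSubring = V := by
  obtain ⟨y, hy⟩ : ∃ y, y ∉ V := by
    by_contra! h
    exact hV (SetLike.ext fun x => ⟨fun _ => ValuationSubring.mem_top x, fun _ => h x⟩)
  have hy0 : y ≠ 0 := fun h0 => hy (h0 ▸ zero_mem _)
  set x := y⁻¹ with hx
  have hx0 : x ≠ 0 := inv_ne_zero hy0
  have hk : ∀ c : k, c ≠ 0 → V.valuation (algebraMap k F c) = 1 := by
    intro c hc
    refine le_antisymm ((V.valuation_le_one_iff _).mpr (hkV c)) ?_
    have h1 := (V.valuation_le_one_iff _).mpr (hkV c⁻¹)
    rw [map_inv₀, map_inv₀] at h1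
    exact (inv_le_one₀ (zero_lt_iff.mpr
      ((V.valuation.ne_zero_iff).mpr (by simpa using hc)))).mp h1
  have hVx : V.valuation x < 1 := by
    rw [← V.valuation_le_one_iff, not_le] at hy
    rw [hx, map_inv₀]
    exact inv_lt_one_of_one_lt₀ hy
  have hVx0 : V.valuation x ≠ 0 := (V.valuation.ne_zero_iff).mpr hx0
  have htr : Transcendental k x := by
    rcases transcendental_or (k := k) x with h | ⟨c, hc⟩
    · exact h
    · exfalso
      have hc0 : c ≠ 0 := by
        rintro rfl
        rw [map_zero] at hc
        exact hx0 hc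
      rw [hc, hk c hc0] at hVx
      exact lt_irrefl _ hVx
  haveI := finiteDimensional_adjoin_simple htr
  have hpid : IsPrincipalIdealRing V := by
    refine isPID_of_finite (F := k⟮x⟯) V x hx0 hVx ?_
    rintro ⟨g, hg⟩ hg0
    have hg0' : g ≠ 0 := fun h => hg0 (Subtype.ext h)
    change ∃ j : ℤ, V.valuation g = V.valuation x ^ j
    rw [IntermediateField.mem_adjoin_simple_iff] at hg
    obtain ⟨r, s, rfl⟩ := hg
    have hr0 : r ≠ 0 := by
      rintro rfl
      simp at hg0'
    have hs0 : s ≠ 0 := by
      rintro rfl
      simp at hg0'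
    refine ⟨(r.natTrailingDegree : ℤ) - s.natTrailingDegree, ?_⟩
    rw [map_div₀, val_aeval _ hk hx0 hVx hr0, val_aeval _ hk hx0 hVx hs0, zpow_sub₀ hVx0,
      zpow_natCast, zpow_natCast]
  exact ⟨⟨V, hkV, hV, hpid⟩, rfl⟩

/-- The integral closure of a `k`-subalgebra is the intersection of the local rings of the places
containing it. -/
theorem isIntegral_subalgebra_iff (R : Subalgebra k F) (x : F) :
    IsIntegral R x ↔ ∀ w : Place k F, (∀ r ∈ R, r ∈ w.toValuationSubring) →
      x ∈ w.toValuationSubring := by
  have h1 := iInf_valuationSubring_superset (K := F) (s := (R : Set F))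
  have hclosure : Subring.closure (R : Set F) = R.toSubring := Subring.closure_eq R.toSubring
  rw [hclosure] at h1
  have h2 : IsIntegral R x ↔ x ∈ (integralClosure R.toSubring F).toSubring := Iff.rfl
  rw [h2, ← h1, Subring.mem_iInf]
  constructor
  · intro h w hw
    exact h ⟨w.toValuationSubring, hw⟩
  · rintro h ⟨V, hV⟩
    change x ∈ V
    by_cases htop : V = ⊤
    · rw [htop]
      exact ValuationSubring.mem_top x
    · obtain ⟨w, rfl⟩ := exists_place_of_valuationSubring V
        (fun c => hV (R.algebraMap_mem c)) htop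
      exact h w fun r hr => hV hr

/-- The integral closure of `k[t]` is the ring of functions regular at the places where `t`
is regular. -/
theorem isIntegral_adjoin_iff (t x : F) :
    IsIntegral (Algebra.adjoin k {t}) x ↔ ∀ w : Place k F, t ∈ w.toValuationSubring →
      x ∈ w.toValuationSubring := by
  rw [isIntegral_subalgebra_iff]
  refine forall_congr' fun w => ?_
  have : (∀ r ∈ Algebra.adjoin k {t}, r ∈ w.toValuationSubring) ↔ t ∈ w.toValuationSubring := by
    constructor
    · intro h
      exact h t (Algebra.subset_adjoin rfl)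
    · intro h r hr
      let A : Subalgebra k F :=
        { w.toValuationSubring.toSubring with algebraMap_mem' := w.algebraMap_mem' }
      exact (Algebra.adjoin_le (S := A) (Set.singleton_subset_iff.mpr h)) hr
  rw [this]

theorem isIntegral_adjoin_iff_ord (t : F) {x : F} (hx : x ≠ 0) :
    IsIntegral (Algebra.adjoin k {t}) x ↔ ∀ w : Place k F, 0 ≤ w.ord t → 0 ≤ w.ord x := by
  rw [isIntegral_adjoin_iff]
  rcases eq_or_ne t 0 with rfl | ht
  · refine forall_congr' fun w => ?_
    simp [mem_iff_ord w hx]
  · exact forall_congr' fun w => by rw [mem_iff_ord w hx, mem_iff_ord w ht]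

/-- The value of a function at a place where it is regular. -/
theorem existsUnique_value (w : Place k F) {x : F} (hx : x ∈ w.toValuationSubring) :
    ∃! c : k, w.adicValuation (x - algebraMap k F c) < 1 := by
  obtain ⟨c, hc⟩ := exists_residue w ((mem_iff_val w).mp hx)
  refine ⟨c, hc, fun c' hc' => ?_⟩
  by_contra hne
  have h1 : w.adicValuation (algebraMap k F (c - c')) < 1 := by
    have : algebraMap k F (c - c') = (x - algebraMap k F c') - (x - algebraMap k F c) := by
      rw [map_sub]
      ring
    rw [this]
    exact (Valuation.map_sub _ _ _).trans_lt (max_lt hc' hc)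
  rw [val_algebraMap w (sub_ne_zero.mpr (Ne.symm hne))] at h1
  exact lt_irrefl _ h1

/-- The value of a function at a place (0 at a pole). -/
def value (w : Place k F) (x : F) : k :=
  open Classical in
  if hx : x ∈ w.toValuationSubring then (existsUnique_value w hx).choose else 0

theorem value_spec (w : Place k F) {x : F} (hx : x ∈ w.toValuationSubring) :
    w.adicValuation (x - algebraMap k F (value w x)) < 1 := by
  rw [value, dif_pos hx]
  exact (existsUnique_value w hx).choose_spec.1

theorem value_eq_iff (w : Place k F) {x : F} (hx : x ∈ w.toValuationSubring) (c : k) :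
    value w x = c ↔ w.adicValuation (x - algebraMap k F c) < 1 := by
  constructor
  · rintro rfl
    exact value_spec w hx
  · intro h
    exact (existsUnique_value w hx).unique (value_spec w hx) h

theorem value_algebraMap (w : Place k F) (c : k) : value w (algebraMap k F c) = c := by
  rw [value_eq_iff w (w.algebraMap_mem' c)]
  simp

theorem value_add (w : Place k F) {x y : F} (hx : x ∈ w.toValuationSubring)
    (hy : y ∈ w.toValuationSubring) : value w (x + y) = value w x + value w y := by
  rw [value_eq_iff w (add_mem hx hy), map_add]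
  have : x + y - (algebraMap k F (value w x) + algebraMap k F (value w y))
      = (x - algebraMap k F (value w x)) + (y - algebraMap k F (value w y)) := by ring
  rw [this]
  exact (Valuation.map_add _ _ _).trans_lt (max_lt (value_spec w hx) (value_spec w hy))

theorem value_mul (w : Place k F) {x y : F} (hx : x ∈ w.toValuationSubring)
    (hy : y ∈ w.toValuationSubring) : value w (x * y) = value w x * value w y := by
  rw [value_eq_iff w (mul_mem hx hy), map_mul]
  have : x * y - (algebraMap k F (value w x) * algebraMap k F (value w y))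
      = (x - algebraMap k F (value w x)) * y
        + algebraMap k F (value w x) * (y - algebraMap k F (value w y)) := by ring
  rw [this]
  refine (Valuation.map_add _ _ _).trans_lt (max_lt ?_ ?_)
  · rw [map_mul]
    exact (mul_le_of_le_one_right' ((mem_iff_val w).mp hy)).trans_lt (value_spec w hx)
  · rw [map_mul]
    exact (mul_le_of_le_one_left' ((mem_iff_val w).mp (w.algebraMap_mem' _))).trans_lt
      (value_spec w hy)

theorem value_eq_zero_iff (w : Place k F) {x : F} (hx : x ∈ w.toValuationSubring) :
    value w x = 0 ↔ w.adicValuation x < 1 := by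
  rw [value_eq_iff w hx]
  simp

/-- Evaluation at `w` as an algebra homomorphism on a subalgebra regular at `w`. -/
def valueHom (w : Place k F) (B : Subalgebra k F) (hB : ∀ x ∈ B, x ∈ w.toValuationSubring) :
    B →ₐ[k] k where
  toFun x := value w x
  map_one' := by
    have := value_algebraMap w (1 : k)
    rwa [map_one] at this
  map_mul' x y := value_mul w (hB x x.2) (hB y y.2)
  map_zero' := by
    have := value_algebraMap w (0 : k)
    rwa [map_zero] at this
  map_add' x y := value_add w (hB x x.2) (hB y y.2)
  commutes' c := value_algebraMap w c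

@[simp]
theorem valueHom_apply (w : Place k F) (B : Subalgebra k F)
    (hB : ∀ x ∈ B, x ∈ w.toValuationSubring) (x : B) : valueHom w B hB x = value w x := rfl

/-- The ring of functions regular outside the poles of `t`. -/
def affineRing (k : Type*) {F : Type*} [Field k] [Field F] [Algebra k F] (t : F) :
    Subalgebra k F where
  carrier := {x | ∀ w : Place k F, t ∈ w.toValuationSubring → x ∈ w.toValuationSubring}
  mul_mem' hx hy w hw := mul_mem (hx w hw) (hy w hw)
  add_mem' hx hy w hw := add_mem (hx w hw) (hy w hw)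
  algebraMap_mem' c w _ := w.algebraMap_mem' c

omit [IsAlgClosed k] [IsFunctionField k F] in
theorem mem_affineRing {t x : F} : x ∈ affineRing k t ↔
    ∀ w : Place k F, t ∈ w.toValuationSubring → x ∈ w.toValuationSubring := Iff.rfl

theorem mem_affineRing_iff_isIntegral {t x : F} : x ∈ affineRing k t ↔
    IsIntegral (Algebra.adjoin k {t}) x := (isIntegral_adjoin_iff t x).symm

omit [IsAlgClosed k] [IsFunctionField k F] in
theorem self_mem_affineRing (t : F) : t ∈ affineRing k t := fun _ h => h

/-- An ideal of the affine ring different from the whole ring has a common zero. -/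
theorem exists_place_of_ideal {t : F} (ht : Transcendental k t) (I : Ideal (affineRing k t))
    (hI : I ≠ ⊤) : ∃ w : Place k F, t ∈ w.toValuationSubring ∧
      ∀ x ∈ I, w.adicValuation (x : F) < 1 := by
  classical
  -- enlarge `I` to a maximal ideal `M`
  obtain ⟨M, hM, hIM⟩ := I.exists_le_maximal hI
  -- `M` is nonzero
  have hMne : ∃ x ∈ M, x ≠ 0 := by
    by_contra! h
    -- then the affine ring is a field
    have hbot : M = ⊥ := by
      ext x
      exact ⟨fun hx => h x hx, fun hx => hx ▸ M.zero_mem⟩
    have hf : IsField (affineRing k t) := by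
      by_contra hnf
      exact Ring.ne_bot_of_isMaximal_of_not_isField hM hnf hbot
    obtain ⟨v, hv⟩ := exists_ord_pos_of_transcendental ht
    have ht0 : t ≠ 0 := by
      rintro rfl
      exact ht isAlgebraic_zero
    have hne : (⟨t, self_mem_affineRing t⟩ : affineRing k t) ≠ 0 := fun h =>
      ht0 (congrArg Subtype.val h)
    obtain ⟨b, hb⟩ := hf.mul_inv_cancel hne
    have hb' : t * (b : F) = 1 := congrArg Subtype.val hb
    have hb0 : (b : F) ≠ 0 := fun h0 => by
      rw [h0, mul_zero] at hb'
      exact zero_ne_one hb'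
    have h1 : (b : F) ∈ v.toValuationSubring := b.2 v ((mem_iff_ord v ht0).mpr hv.le)
    rw [mem_iff_ord v hb0] at h1
    have h2 := congrArg v.ord hb'
    rw [v.ord_mul ht0 hb0, v.ord_one] at h2
    omega
  obtain ⟨V, hAV, hMV⟩ := Ideal.image_subset_nonunits_valuationSubring
    (A := (affineRing k t).toSubring) M hM.ne_top
  obtain ⟨x₀, hx₀, hx₀0⟩ := hMne
  have hVtop : V ≠ ⊤ := by
    rintro rfl
    have h1 : (x₀ : F) ∈ (⊤ : ValuationSubring F).nonunits := hMV ⟨x₀, hx₀, rfl⟩
    rw [ValuationSubring.mem_nonunits_iff] at h1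
    have h2 : ((x₀ : F))⁻¹ ∈ (⊤ : ValuationSubring F) := ValuationSubring.mem_top _
    rw [← ValuationSubring.valuation_le_one_iff, map_inv₀, inv_le_one₀
      (zero_lt_iff.mpr (((⊤ : ValuationSubring F).valuation.ne_zero_iff).mpr
        (fun h => hx₀0 (Subtype.ext h))))] at h2
    exact absurd h1 (not_lt.mpr h2)
  obtain ⟨w, rfl⟩ := exists_place_of_valuationSubring V
    (fun c => hAV ((affineRing k t).algebraMap_mem c)) hVtop
  refine ⟨w, hAV (self_mem_affineRing t), fun x hx => ?_⟩
  have h1 : (x : F) ∈ w.toValuationSubring.nonunits := hMV ⟨x, hIM hx, rfl⟩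
  rw [ValuationSubring.mem_nonunits_iff_exists_mem_maximalIdeal] at h1
  obtain ⟨h2, h3⟩ := h1
  rw [IsLocalRing.mem_maximalIdeal, mem_nonunits_iff, ← w.adicValuation_coe_eq_one_iff] at h3
  exact lt_of_le_of_ne ((mem_iff_val w).mp h2) h3

omit [IsAlgClosed k] [IsFunctionField k F] in
theorem sub_algebraMap_ne_zero {t : F} (ht : Transcendental k t) (d : k) :
    t - algebraMap k F d ≠ 0 := by
  intro h0
  rw [sub_eq_zero] at h0
  exact ht (h0 ▸ isAlgebraic_algebraMap d)

omit [IsAlgClosed k] [IsFunctionField k F] in
theorem ord_sub_nonneg {t : F} (ht : Transcendental k t) {u : Place k F}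
    (hu : t ∈ u.toValuationSubring) (d : k) : 0 ≤ u.ord (t - algebraMap k F d) :=
  (mem_iff_ord u (sub_algebraMap_ne_zero ht d)).mp (sub_mem hu (u.algebraMap_mem' d))

theorem ord_sub_pos_iff {t : F} (ht : Transcendental k t) {u : Place k F}
    (hu : t ∈ u.toValuationSubring) (d : k) :
    0 < u.ord (t - algebraMap k F d) ↔ value u t = d := by
  rw [value_eq_iff u hu, val_lt_one_iff, or_iff_right (sub_algebraMap_ne_zero ht d)]

omit [IsAlgClosed k] [IsFunctionField k F] in
theorem ord_prod (u : Place k F) {ι : Type*} (Q : Finset ι) (h : ι → F)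
    (hh : ∀ i ∈ Q, h i ≠ 0) : u.ord (∏ i ∈ Q, h i) = ∑ i ∈ Q, u.ord (h i) := by
  classical
  induction Q using Finset.induction_on with
  | empty => simp
  | insert v Q hv ih =>
    rw [Finset.prod_insert hv, Finset.sum_insert hv, u.ord_mul (hh v (Finset.mem_insert_self _ _))
      (Finset.prod_ne_zero_iff.mpr fun v hv => hh v (Finset.mem_insert_of_mem hv)),
      ih fun v hv => hh v (Finset.mem_insert_of_mem hv)]

/-- Clearing denominators by a polynomial in `t`. -/
theorem exists_clear {t : F} (ht : Transcendental k t) {f : F} (hf0 : f ≠ 0) :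
    ∃ p : Polynomial k, p ≠ 0 ∧
      (∀ u : Place k F, t ∈ u.toValuationSubring → 0 ≤ u.ord (Polynomial.aeval t p * f)) ∧
      (∀ w : Place k F, t ∈ w.toValuationSubring →
        (∀ u : Place k F, t ∈ u.toValuationSubring → value u t = value w t → 0 ≤ u.ord f) →
        w.ord (Polynomial.aeval t p) = 0) := by
  classical
  obtain ⟨P, hP⟩ : ∃ P : Finset (Place k F), ∀ u, u ∈ P ↔
      (t ∈ u.toValuationSubring ∧ u.ord f < 0) := by
    refine ⟨(finite_support (k := k) f).toFinset.filter
      fun v => t ∈ v.toValuationSubring ∧ v.ord f < 0, fun u => ?_⟩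
    rw [Finset.mem_filter, Set.Finite.mem_toFinset, Function.mem_support]
    constructor
    · exact fun h => h.2
    · exact fun h => ⟨by have := h.2; omega, h⟩
  obtain ⟨N, hN⟩ : ∃ N : ℕ, ∀ u ∈ P, (u.ord f).natAbs ≤ N :=
    ⟨∑ v ∈ P, (v.ord f).natAbs, fun u hu =>
      Finset.single_le_sum (f := fun v : Place k F => (v.ord f).natAbs)
        (fun _ _ => Nat.zero_le _) hu⟩
  have hp0 : (∏ v ∈ P, (Polynomial.X - Polynomial.C (value v t)) ^ N) ≠ 0 :=
    Finset.prod_ne_zero_iff.mpr fun v _ => pow_ne_zero _ (Polynomial.X_sub_C_ne_zero _)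
  have hpt : Polynomial.aeval t (∏ v ∈ P, (Polynomial.X - Polynomial.C (value v t)) ^ N)
      = ∏ v ∈ P, (t - algebraMap k F (value v t)) ^ N := by
    rw [map_prod]
    exact Finset.prod_congr rfl fun v _ => by simp
  have hg0 : (∏ v ∈ P, (t - algebraMap k F (value v t)) ^ N) ≠ 0 :=
    Finset.prod_ne_zero_iff.mpr fun v _ => pow_ne_zero _ (sub_algebraMap_ne_zero ht _)
  have hord : ∀ u : Place k F, u.ord (∏ v ∈ P, (t - algebraMap k F (value v t)) ^ N)
      = ∑ v ∈ P, (N : ℤ) * u.ord (t - algebraMap k F (value v t)) := by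
    intro u
    rw [ord_prod u P _ fun v _ => pow_ne_zero _ (sub_algebraMap_ne_zero ht _)]
    exact Finset.sum_congr rfl fun v _ => ord_pow u _ _
  refine ⟨_, hp0, fun u hu => ?_, fun w hw hwu => ?_⟩
  · rw [hpt, u.ord_mul hg0 hf0, hord]
    have hnn : ∀ v ∈ P, 0 ≤ (N : ℤ) * u.ord (t - algebraMap k F (value v t)) := fun v _ =>
      mul_nonneg (by positivity) (ord_sub_nonneg ht hu _)
    by_cases h : u.ord f < 0
    · have huP : u ∈ P := (hP u).mpr ⟨hu, h⟩
      have h1 := (ord_sub_pos_iff ht hu (value u t)).mpr rfl
      have h2 := hN u huP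
      have h3 := Finset.single_le_sum hnn huP
      have h4 : (N : ℤ) * 1 ≤ (N : ℤ) * u.ord (t - algebraMap k F (value u t)) :=
        mul_le_mul_of_nonneg_left (by omega) (by positivity)
      omega
    · have := Finset.sum_nonneg hnn
      omega
  · rw [hpt, hord]
    refine Finset.sum_eq_zero fun v hv => ?_
    obtain ⟨hvt, hvf⟩ := (hP v).mp hv
    have h1 : value v t ≠ value w t := by
      intro h
      have := hwu v hvt h
      omega
    have h2 : w.ord (t - algebraMap k F (value v t)) = 0 := by
      refine le_antisymm ?_ (ord_sub_nonneg ht hw _)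
      by_contra hpos
      push Not at hpos
      exact h1 ((ord_sub_pos_iff ht hw _).mp hpos).symm
    rw [h2, mul_zero]

/-- Separation of finite places by functions in the affine ring. -/
theorem exists_separating {t : F} (ht : Transcendental k t) {w : Place k F}
    (hw : t ∈ w.toValuationSubring)
    (S : Finset (Place k F)) (hS : w ∉ S) (n : ℕ) :
    ∃ x ∈ affineRing k t, x ≠ 0 ∧ w.ord x = 0 ∧
      ∀ v ∈ S, t ∈ v.toValuationSubring → (n : ℤ) ≤ v.ord x := by
  classical
  obtain ⟨f, hf0, hf⟩ := exists_ord_eq_finset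
    ((finite_zeros (k := k) (t - algebraMap k F (value w t))).toFinset ∪ S)
    (fun v => if v = w then 0 else (n : ℤ))
  have hmemT : ∀ u : Place k F, t ∈ u.toValuationSubring → value u t = value w t →
      u ∈ (finite_zeros (k := k) (t - algebraMap k F (value w t))).toFinset ∪ S := by
    intro u hu h
    rw [Finset.mem_union, Set.Finite.mem_toFinset]
    left
    exact (ord_sub_pos_iff ht hu _).mpr h
  obtain ⟨p, hp0, hp1, hp2⟩ := exists_clear ht hf0
  have hpt0 : Polynomial.aeval t p ≠ 0 := fun h => ht ⟨p, hp0, h⟩
  have hfw : w.ord f = 0 := by rw [hf w (hmemT w hw rfl), if_pos rfl]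
  refine ⟨Polynomial.aeval t p * f, fun u hu => ?_, mul_ne_zero hpt0 hf0, ?_, fun v hv hvt => ?_⟩
  · rw [mem_iff_ord u (mul_ne_zero hpt0 hf0)]
    exact hp1 u hu
  · rw [w.ord_mul hpt0 hf0, hfw, add_zero]
    refine hp2 w hw fun u hu h => ?_
    rw [hf u (hmemT u hu h)]
    split_ifs <;> simp
  · have hvw : v ≠ w := by
      rintro rfl
      exact hS hv
    have h1 := hf v (Finset.mem_union_right _ hv)
    rw [if_neg hvw] at h1
    rw [v.ord_mul hpt0 hf0, h1]
    have h2 : 0 ≤ v.ord (Polynomial.aeval t p) := by
      rw [← mem_iff_ord v hpt0]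
      let A : Subalgebra k F :=
        { v.toValuationSubring.toSubring with algebraMap_mem' := v.algebraMap_mem' }
      exact (Algebra.adjoin_le (S := A) (Set.singleton_subset_iff.mpr hvt))
        (Polynomial.aeval_mem_adjoin_singleton k t)
    omega

/-- Finite places are determined by their ideals in the affine ring. -/
theorem eq_of_affineRing {t : F} (ht : Transcendental k t) {w w' : Place k F}
    (hw : t ∈ w.toValuationSubring) (hw' : t ∈ w'.toValuationSubring)
    (h : ∀ x ∈ affineRing k t, w'.adicValuation x < 1 → w.adicValuation x < 1) : w = w' := by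
  classical
  by_contra hne
  obtain ⟨x, hx, hx0, hxw, hxS⟩ := exists_separating ht hw {w'} (by simpa using hne) 1
  have h1 := hxS w' (by simp) hw'
  have h2 := h x hx ((val_lt_one_iff w').mpr (Or.inr (by omega)))
  rw [val_lt_one_iff] at h2
  rcases h2 with h2 | h2
  · exact hx0 h2
  · omega

/-- Maximal ideals of the affine ring correspond to finite places. -/
theorem existsUnique_place_of_isMaximal {t : F} (ht : Transcendental k t)
    (M : Ideal (affineRing k t)) [hM : M.IsMaximal] :
    ∃! w : Place k F, t ∈ w.toValuationSubring ∧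
      ∀ x : affineRing k t, x ∈ M ↔ w.adicValuation (x : F) < 1 := by
  obtain ⟨w, hw, hMw⟩ := exists_place_of_ideal ht M hM.ne_top
  have key : ∀ x : affineRing k t, x ∈ M ↔ w.adicValuation (x : F) < 1 := by
    intro x
    refine ⟨hMw x, fun hx => ?_⟩
    let I : Ideal (affineRing k t) := RingHom.ker (valueHom w (affineRing k t)
      (fun x hx => hx w hw) : affineRing k t →+* k)
    have hMI : M ≤ I := by
      intro y hy
      rw [RingHom.mem_ker]
      exact (value_eq_zero_iff w (y.2 w hw)).mpr (hMw y hy)
    have hI : M = I := by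
      refine hM.eq_of_le ?_ hMI
      rw [Ideal.ne_top_iff_one, RingHom.mem_ker, map_one]
      exact one_ne_zero
    rw [hI, RingHom.mem_ker]
    exact (value_eq_zero_iff w (x.2 w hw)).mpr hx
  refine ⟨w, ⟨hw, key⟩, ?_⟩
  rintro w' ⟨hw', key'⟩
  refine eq_of_affineRing ht hw' hw fun x hx hx1 => ?_
  exact (key' ⟨x, hx⟩).mp ((key ⟨x, hx⟩).mpr hx1)

/-- Every `k`-algebra homomorphism from the affine ring to `k` is the evaluation at a unique
finite place. -/
theorem existsUnique_place_of_algHom {t : F} (ht : Transcendental k t)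
    (χ : affineRing k t →ₐ[k] k) :
    ∃! w : Place k F, t ∈ w.toValuationSubring ∧
      ∀ x : affineRing k t, value w (x : F) = χ x := by
  have hM : (RingHom.ker (χ : affineRing k t →+* k)).IsMaximal := by
    refine RingHom.ker_isMaximal_of_surjective _ fun c => ⟨algebraMap k _ c, ?_⟩
    exact χ.commutes c
  obtain ⟨w, ⟨hw, hker⟩, huniq⟩ := existsUnique_place_of_isMaximal ht
    (RingHom.ker (χ : affineRing k t →+* k))
  have hval : ∀ (w : Place k F), t ∈ w.toValuationSubring →
      ((∀ x : affineRing k t, value w (x : F) = χ x) ↔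
        ∀ x : affineRing k t, x ∈ RingHom.ker (χ : affineRing k t →+* k) ↔
          w.adicValuation (x : F) < 1) := by
    intro w hw
    constructor
    · intro h x
      rw [RingHom.mem_ker, ← value_eq_zero_iff w (x.2 w hw), h x]
      rfl
    · intro h x
      rw [value_eq_iff w (x.2 w hw)]
      have h1 : x - algebraMap k _ (χ x) ∈ RingHom.ker (χ : affineRing k t →+* k) := by
        rw [RingHom.mem_ker, map_sub, sub_eq_zero]
        exact (χ.commutes _).symm
      exact (h _).mp h1
  refine ⟨w, ⟨hw, (hval w hw).mpr hker⟩, ?_⟩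
  rintro w' ⟨hw', h'⟩
  exact huniq w' ⟨hw', (hval w' hw').mp h'⟩

/-- Every element of `F` is a quotient of elements of the affine ring; in fact the denominator may
be taken to be a polynomial in `t`. -/
theorem exists_mul_mem_affineRing {t : F} (ht : Transcendental k t) (x : F) :
    ∃ p : Polynomial k, p ≠ 0 ∧ Polynomial.aeval t p * x ∈ affineRing k t := by
  rcases eq_or_ne x 0 with rfl | hx
  · exact ⟨1, one_ne_zero, by simp⟩
  obtain ⟨p, hp0, hp1, -⟩ := exists_clear ht hx
  refine ⟨p, hp0, fun u hu => ?_⟩
  rw [mem_iff_ord u (mul_ne_zero (fun h => ht ⟨p, hp0, h⟩) hx)]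
  exact hp1 u hu

end Fermat.Agent.Curves
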