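import Fermat.Agent.Curves.Along
import Fermat.Agent.ModFun.Degree
import Fermat.Prelude.Def_ModularCurve_HeckeOperatorTotal

/-!
# The modular function fields are function fields of one variable
-/

set_option autoImplicit false
set_option linter.style.haveILetI false

noncomputable section

namespace Fermat.Agent.Curves

open AlgebraicCurve IntermediateField WithZero ModularCurve

theorem finrank_adjoin_eq_relfinrank {k Ω : Type*} [Field k] [Field Ω] [Algebra k Ω]
    (B : IntermediateField k Ω) (t : B) :
    Module.finrank k⟮t⟯ B = relfinrank k⟮(t : Ω)⟯ B := by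
  have h1 : (k⟮t⟯).map B.val = k⟮(t : Ω)⟯ := by
    rw [IntermediateField.adjoin_map, Set.image_singleton]
    rfl
  have h2 := IntermediateField.finrank_comap k⟮(t : Ω)⟯ B.val
  rw [← h1, IntermediateField.comap_map, h1, IntermediateField.fieldRange_val] at h2
  exact h2

theorem isFunctionField_of_relfinrank {k Ω : Type*} [Field k] [Field Ω] [Algebra k Ω]
    (B : IntermediateField k Ω) {t : Ω} (ht : Transcendental k t) (htB : t ∈ B)
    (h : relfinrank k⟮t⟯ B ≠ 0) : IsFunctionField k B := by
  refine ⟨⟨t, htB⟩, ?_, ?_⟩
  · intro h1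
    exact ht (h1.algHom B.val)
  · refine FiniteDimensional.of_finrank_pos ?_
    rw [finrank_adjoin_eq_relfinrank]
    exact Nat.pos_of_ne_zero h

section C

variable (k : Type*) [Field k]

theorem transcendental_jqModC : Transcendental k (jqModC k) := by
  rw [transcendental_iff_injective]
  have := ModFun.jev_injective (k := k)
  intro p q hpq
  apply this
  rw [ModFun.jev_eq_aeval, ModFun.jev_eq_aeval]
  exact hpq

theorem isFunctionField_fullC [IsSepClosed k] (N : ℕ) (hN : (N : k) ≠ 0) :
    IsFunctionField k (modularFunctionFieldFullC k N) := by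
  have hN0 : N ≠ 0 := by
    rintro rfl
    simp at hN
  haveI : NeZero N := ⟨hN0⟩
  refine isFunctionField_of_relfinrank _ (transcendental_jqModC k) (jqModC_mem_full k N) ?_
  rw [ModFun.relfinrank_modularFunctionField k N hN]
  exact ModFun.dedekindPsi_pos hN0

/-- The degree of the modular function field over `k(j)`. -/
theorem finrank_fullC [IsSepClosed k] (N : ℕ) (hN : (N : k) ≠ 0) :
    Module.finrank k⟮(⟨jqModC k, jqModC_mem_full k N⟩ : modularFunctionFieldFullC k N)⟯
      (modularFunctionFieldFullC k N) = dedekindPsi N := by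
  rw [finrank_adjoin_eq_relfinrank, ModFun.relfinrank_modularFunctionField k N hN]

end C

section Char0

variable (L : Type*) [Field L] [Algebra ℚ L]

/-- The base change of the modular function field over `ℚ` is the modular function field. -/
theorem laurentBaseChange_eq (N : ℕ) :
    laurentBaseChange L (modularFunctionFieldFull N) = modularFunctionFieldFullC L N := by
  have hj : ∀ (d : ℕ) [NeZero d], coeffEmb L (qExpand ℚ d jq) = qExpand L d (jqModC L) := by
    intro d _
    have h1 : coeffMap (algebraMap ℚ L) (qExpand ℚ d (jqModC ℚ))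
        = qExpand L d (coeffMap (algebraMap ℚ L) (jqModC ℚ)) := coeffMap_qExpand _ d _
    rw [coeffMap_jqModC] at h1
    exact h1
  apply le_antisymm
  · rw [laurentBaseChange, IntermediateField.adjoin_le_iff]
    rintro _ ⟨y, hy, rfl⟩
    -- elements of the rational field
    have hy' : y ∈ Subfield.closure (Set.range (algebraMap ℚ (LaurentSeries ℚ)) ∪
        divisorExpansions N) := hy
    clear hy
    induction hy' using Subfield.closure_induction with
    | mem y hy =>
      rcases hy with ⟨a, rfl⟩ | ⟨d, hd, hdN, rfl⟩
      · have : coeffEmb L (algebraMap ℚ (LaurentSeries ℚ) a)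
            = algebraMap L (LaurentSeries L) (algebraMap ℚ L a) := by
          rw [algebraMap_laurentSeries_eq_single, algebraMap_laurentSeries_eq_single]
          exact coeffMap_single _ _ _
        rw [this]
        exact (modularFunctionFieldFullC L N).algebraMap_mem _
      · rw [hj d]
        exact jqModCd_mem_full L N hdN
    | one => rw [map_one]; exact one_mem _
    | add x y hx' hy' hx hy =>
      rw [map_add]
      exact add_mem hx hy
    | neg x hx' hx => rw [map_neg]; exact neg_mem hx
    | inv x hx' hx => rw [map_inv₀]; exact inv_mem hx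
    | mul x y hx' hy' hx hy => rw [map_mul]; exact mul_mem hx hy
  · rw [modularFunctionFieldFullC, IntermediateField.adjoin_le_iff]
    rintro _ ⟨d, hd, hdN, rfl⟩
    rw [← hj d]
    exact coeffEmb_mem_laurentBaseChange L (jqd_mem_full N hdN)

instance isFunctionField_baseChange [IsSepClosed L] (N : ℕ) [NeZero N] :
    IsFunctionField L (laurentBaseChange L (modularFunctionFieldFull N)) := by
  haveI : CharZero L := charZero_of_injective_algebraMap (algebraMap ℚ L).injective
  rw [laurentBaseChange_eq]
  exact isFunctionField_fullC L N (by exact_mod_cast NeZero.ne N)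

instance isFunctionField_bar (N : ℕ) [NeZero N] :
    IsFunctionField (AlgebraicClosure ℚ) (modularFunctionFieldBar N) :=
  isFunctionField_baseChange (AlgebraicClosure ℚ) N

/-- The Hecke operators are defined by the geometric construction. -/
theorem heckeInputsAlong [IsAlgClosed L] (N ℓ : ℕ) [NeZero N] [NeZero ℓ] :
    HeckeInputsAlong L N ℓ := by
  haveI h1 : IsFunctionField L (laurentBaseChange L (modularFunctionFieldFull N)) :=
    isFunctionField_baseChange L N
  haveI h2 : IsFunctionField L (laurentBaseChange L (modularFunctionFieldFull (N * ℓ))) :=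
    isFunctionField_baseChange L (N * ℓ)
  have hα : HeckeAlphaBarIntegral L N ℓ := integralAlong (heckeAlphaBar L N ℓ)
  have hβ : HeckeBetaBarIntegral L N ℓ := integralAlong (heckeBetaBar L N ℓ)
  have hfin : FiniteAlong L (heckeAlphaBar L N ℓ) := finiteAlong (heckeAlphaBar L N ℓ)
  have hFI : FundamentalIdentityAlong L (heckeBetaBar L N ℓ) hβ :=
    fundamentalIdentityAlong (heckeBetaBar L N ℓ) hβ
  have hN : NormFormulaAlong L (heckeAlphaBar L N ℓ) hfin :=
    normFormulaAlong (heckeAlphaBar L N ℓ) hfin
  exact heckeInputsAlong_intro hα hβ hFI hfin hN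

section

variable [IsAlgClosed L] (N ℓ : ℕ) [NeZero N] [NeZero ℓ]

theorem alphaIntegral : (heckeAlphaBar L N ℓ).toRingHom.IsIntegral := integralAlong _

theorem betaIntegral : (heckeBetaBar L N ℓ).toRingHom.IsIntegral := integralAlong _

/-- The Hecke correspondence on divisors. -/
def heckeDiv : Divisor L (laurentBaseChange L (modularFunctionFieldFull N)) →+
    Divisor L (laurentBaseChange L (modularFunctionFieldFull N)) :=
  Divisor.correspondence (heckeBetaBar L N ℓ) (heckeAlphaBar L N ℓ)
    (betaIntegral L N ℓ) (alphaIntegral L N ℓ)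

theorem heckeDiv_apply (D : Divisor L (laurentBaseChange L (modularFunctionFieldFull N))) :
    heckeDiv L N ℓ D = Divisor.pushforwardAlong (heckeAlphaBar L N ℓ) (alphaIntegral L N ℓ)
      (Divisor.pullbackAlong (heckeBetaBar L N ℓ) (betaIntegral L N ℓ) D) := rfl

theorem heckeDiv_mem_degZero {D : Divisor L (laurentBaseChange L (modularFunctionFieldFull N))}
    (hD : D ∈ Divisor.degZero (K := L) (F := laurentBaseChange L (modularFunctionFieldFull N))) :
    heckeDiv L N ℓ D ∈
      Divisor.degZero (K := L) (F := laurentBaseChange L (modularFunctionFieldFull N)) :=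
  Divisor.correspondence_mem_degZero (heckeBetaBar L N ℓ) (heckeAlphaBar L N ℓ)
    (betaIntegral L N ℓ) (alphaIntegral L N ℓ) (fundamentalIdentityAlong _ _) hD

/-- The Hecke operator on divisor classes. -/
theorem heckeOperatorAlong_mk
    (D : Divisor.degZero (K := L) (F := laurentBaseChange L (modularFunctionFieldFull N))) :
    heckeOperatorAlong L N ℓ (Pic0.mk D) =
      Pic0.mk ⟨heckeDiv L N ℓ D, heckeDiv_mem_degZero L N ℓ D.2⟩ := by
  have hFI : FundamentalIdentityAlong L (heckeBetaBar L N ℓ) (betaIntegral L N ℓ) :=
    fundamentalIdentityAlong (heckeBetaBar L N ℓ) _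
  have hfin : FiniteAlong L (heckeAlphaBar L N ℓ) := finiteAlong (heckeAlphaBar L N ℓ)
  have hN : NormFormulaAlong L (heckeAlphaBar L N ℓ) hfin :=
    normFormulaAlong (heckeAlphaBar L N ℓ) hfin
  rw [heckeOperatorAlong_eq (alphaIntegral L N ℓ) (betaIntegral L N ℓ) hFI hfin hN]
  rfl

end

end Char0

end Fermat.Agent.Curves
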