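import Fermat.Agent.Curves.Tower

/-!
# The `Along` versions
-/

set_option autoImplicit false
set_option linter.style.haveILetI false

noncomputable section

namespace Fermat.Agent.Curves

open AlgebraicCurve IntermediateField WithZero

section One

variable {k F F' : Type*} [Field k] [Field F] [Field F'] [Algebra k F] [Algebra k F']
  [IsFunctionField k F] [IsFunctionField k F'] (φ : F →ₐ[k] F')

theorem finiteAlong : FiniteAlong k φ := by
  letI := algebraAlong φ
  haveI := isScalarTower_along φ
  exact finiteDimensional_of_isFunctionField (k := k)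

theorem integralAlong : φ.toRingHom.IsIntegral := by
  letI := algebraAlong φ
  haveI := isScalarTower_along φ
  haveI : FiniteDimensional F F' := finiteDimensional_of_isFunctionField (k := k)
  exact (Algebra.IsIntegral.of_finite F F').isIntegral

variable [IsAlgClosed k]

theorem fundamentalIdentityAlong (hφ : φ.toRingHom.IsIntegral) :
    FundamentalIdentityAlong k φ hφ := by
  letI := algebraAlong φ
  haveI := isScalarTower_along φ
  haveI := isIntegral_along φ hφ
  haveI : FiniteDimensional F F' := finiteDimensional_of_isFunctionField (k := k)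
  exact instFundamentalIdentityOfSumRamificationInertia

theorem normFormulaAlong (hfin : FiniteAlong k φ) : NormFormulaAlong k φ hfin := by
  letI := algebraAlong φ
  haveI := isScalarTower_along φ
  haveI : FiniteDimensional F F' := finiteDimensional_of_isFunctionField (k := k)
  exact pushforwardNormFormula k F F'

theorem pushforwardAlong_single' (hφ : φ.toRingHom.IsIntegral) (w : Place k F') (n : ℤ) :
    Divisor.pushforwardAlong φ hφ (Finsupp.single w n)
      = Finsupp.single (w.restrictAlong φ hφ) n := by
  letI := algebraAlong φ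
  haveI := isScalarTower_along φ
  haveI := isIntegral_along φ hφ
  exact pushforward_single' w n

theorem pullbackAlong_divisorOf (hφ : φ.toRingHom.IsIntegral) (x : F) :
    Divisor.pullbackAlong φ hφ (divisorOf (k := k) x) = divisorOf (φ x) := by
  letI := algebraAlong φ
  haveI := isScalarTower_along φ
  haveI := isIntegral_along φ hφ
  haveI : FiniteDimensional F F' := finiteDimensional_of_isFunctionField (k := k)
  exact pullback_divisorOf x

theorem pushforwardAlong_divisorOf (hφ : φ.toRingHom.IsIntegral) {x : F'} (hx : x ≠ 0) :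
    Divisor.pushforwardAlong φ hφ (divisorOf (k := k) x) =
      divisorOf (letI := algebraAlong φ; Algebra.norm F x) := by
  letI := algebraAlong φ
  haveI := isScalarTower_along φ
  haveI := isIntegral_along φ hφ
  haveI : FiniteDimensional F F' := finiteDimensional_of_isFunctionField (k := k)
  exact pushforward_divisorOf hx

theorem pushforwardAlong_pullbackAlong (hφ : φ.toRingHom.IsIntegral) (D : Divisor k F) :
    Divisor.pushforwardAlong φ hφ (Divisor.pullbackAlong φ hφ D) = finrankAlong k φ • D := by
  letI := algebraAlong φ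
  haveI := isScalarTower_along φ
  haveI := isIntegral_along φ hφ
  haveI : FiniteDimensional F F' := finiteDimensional_of_isFunctionField (k := k)
  exact pushforward_pullback D

omit [IsAlgClosed k] in
theorem exists_restrictAlong_eq (hφ : φ.toRingHom.IsIntegral) (v : Place k F) :
    ∃ w : Place k F', w.restrictAlong φ hφ = v := by
  letI := algebraAlong φ
  haveI := isScalarTower_along φ
  haveI := isIntegral_along φ hφ
  haveI : FiniteDimensional F F' := finiteDimensional_of_isFunctionField (k := k)
  exact exists_restrict_eq F' v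

omit [IsFunctionField k F] [IsFunctionField k F'] [IsAlgClosed k] in
theorem mem_restrictAlong_iff (hφ : φ.toRingHom.IsIntegral) (w : Place k F') (x : F) :
    x ∈ (w.restrictAlong φ hφ).toValuationSubring ↔ φ x ∈ w.toValuationSubring :=
  Iff.rfl

omit [IsAlgClosed k] in
theorem ramificationIndexAlong_pos (w : Place k F') :
    0 < w.ramificationIndexAlong φ := by
  letI := algebraAlong φ
  haveI := isScalarTower_along φ
  haveI := isIntegral_along φ (integralAlong φ)
  exact w.ramificationIndex_pos (F := F)

theorem sum_ramificationIndexAlong (hφ : φ.toRingHom.IsIntegral) (v : Place k F) :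
    ∑ w ∈ Place.fiberAlong φ hφ v, w.ramificationIndexAlong φ = finrankAlong k φ := by
  letI := algebraAlong φ
  haveI := isScalarTower_along φ
  haveI := isIntegral_along φ hφ
  haveI : FiniteDimensional F F' := finiteDimensional_of_isFunctionField (k := k)
  exact sum_ramificationIndex v

end One

section Two

variable {k F F' F'' : Type*} [Field k] [Field F] [Field F'] [Field F''] [Algebra k F]
  [Algebra k F'] [Algebra k F''] (φ : F →ₐ[k] F') (ψ : F' →ₐ[k] F'')
  (hφ : φ.toRingHom.IsIntegral) (hψ : ψ.toRingHom.IsIntegral)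
  (hψφ : (ψ.comp φ).toRingHom.IsIntegral)

theorem restrictAlong_restrictAlong (w : Place k F'') :
    (w.restrictAlong ψ hψ).restrictAlong φ hφ = w.restrictAlong (ψ.comp φ) hψφ := by
  apply Place.ext
  ext x
  rfl

theorem pullbackAlong_pullbackAlong [HasPrincipalDivisors k F'] [HasPrincipalDivisors k F'']
    (D : Divisor k F) :
    Divisor.pullbackAlong ψ hψ (Divisor.pullbackAlong φ hφ D) =
      Divisor.pullbackAlong (ψ.comp φ) hψφ D := by
  letI := algebraAlong φ
  letI := algebraAlong ψ
  letI := algebraAlong (ψ.comp φ)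
  haveI := isScalarTower_along φ
  haveI := isScalarTower_along ψ
  haveI := isScalarTower_along (ψ.comp φ)
  haveI := isIntegral_along φ hφ
  haveI := isIntegral_along ψ hψ
  haveI := isIntegral_along (ψ.comp φ) hψφ
  haveI : IsScalarTower F F' F'' := IsScalarTower.of_algebraMap_eq fun x => rfl
  exact pullback_pullback D

include hφ hψφ in
theorem ramificationIndexAlong_mul (w : Place k F'') :
    w.ramificationIndexAlong (ψ.comp φ) = w.ramificationIndexAlong ψ *
      (w.restrictAlong ψ hψ).ramificationIndexAlong φ := by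
  letI := algebraAlong φ
  letI := algebraAlong ψ
  letI := algebraAlong (ψ.comp φ)
  haveI := isScalarTower_along φ
  haveI := isScalarTower_along ψ
  haveI := isScalarTower_along (ψ.comp φ)
  haveI := isIntegral_along φ hφ
  haveI := isIntegral_along ψ hψ
  haveI := isIntegral_along (ψ.comp φ) hψφ
  haveI : IsScalarTower F F' F'' := IsScalarTower.of_algebraMap_eq fun x => rfl
  exact ramificationIndex_mul F F' w

variable [IsAlgClosed k] [IsFunctionField k F] [IsFunctionField k F'] [IsFunctionField k F'']

theorem pushforwardAlong_pushforwardAlong (D : Divisor k F'') :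
    Divisor.pushforwardAlong φ hφ (Divisor.pushforwardAlong ψ hψ D) =
      Divisor.pushforwardAlong (ψ.comp φ) hψφ D := by
  letI := algebraAlong φ
  letI := algebraAlong ψ
  letI := algebraAlong (ψ.comp φ)
  haveI := isScalarTower_along φ
  haveI := isScalarTower_along ψ
  haveI := isScalarTower_along (ψ.comp φ)
  haveI := isIntegral_along φ hφ
  haveI := isIntegral_along ψ hψ
  haveI := isIntegral_along (ψ.comp φ) hψφ
  haveI : IsScalarTower F F' F'' := IsScalarTower.of_algebraMap_eq fun x => rfl
  exact pushforward_pushforward D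

end Two

section Congr

variable {k F F' : Type*} [Field k] [Field F] [Field F'] [Algebra k F] [Algebra k F']

theorem pullbackAlong_congr [HasPrincipalDivisors k F'] {φ φ' : F →ₐ[k] F'} (h : φ = φ')
    (hφ : φ.toRingHom.IsIntegral) (hφ' : φ'.toRingHom.IsIntegral) (D : Divisor k F) :
    Divisor.pullbackAlong φ hφ D = Divisor.pullbackAlong φ' hφ' D := by
  subst h
  rfl

theorem pushforwardAlong_congr {φ φ' : F →ₐ[k] F'} (h : φ = φ')
    (hφ : φ.toRingHom.IsIntegral) (hφ' : φ'.toRingHom.IsIntegral) (D : Divisor k F') :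
    Divisor.pushforwardAlong φ hφ D = Divisor.pushforwardAlong φ' hφ' D := by
  subst h
  rfl

end Congr

section SquareAlong

variable {k F F₁ F₂ Z : Type*} [Field k] [Field F] [Field F₁] [Field F₂] [Field Z]
    [Algebra k F] [Algebra k F₁] [Algebra k F₂] [Algebra k Z] [IsAlgClosed k]
    [IsFunctionField k F] [IsFunctionField k F₁] [IsFunctionField k F₂] [IsFunctionField k Z]

/-- If `Z` is generated by `F₁` and `F₂` over `F` and `[Z : F₁] = [F₂ : F]` then norms from `Z` to
`F₁` of elements of `F₂` are norms from `F₂` to `F`. -/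
theorem norm_eq_of_compositum {F F₁ F₂ Z : Type*} [Field F] [Field F₁] [Field F₂] [Field Z]
    [Algebra F F₁] [Algebra F F₂] [Algebra F Z] [Algebra F₁ Z] [Algebra F₂ Z]
    [IsScalarTower F F₁ Z] [IsScalarTower F F₂ Z] [FiniteDimensional F F₂]
    [FiniteDimensional F₁ Z]
    (hgen : Algebra.adjoin F₁ (Set.range (algebraMap F₂ Z)) = ⊤)
    (hdeg : Module.finrank F₁ Z = Module.finrank F F₂) (f : F₂) :
    Algebra.norm F₁ (algebraMap F₂ Z f) = algebraMap F F₁ (Algebra.norm F f) := by
  classical
  let b := Module.finBasis F F₂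
  -- the image of `b` spans `Z` over `F₁`
  have hspan : ⊤ ≤ Submodule.span F₁ (Set.range fun i => algebraMap F₂ Z (b i)) := by
    have hmem : ∀ y : F₂, algebraMap F₂ Z y ∈
        Submodule.span F₁ (Set.range fun i => algebraMap F₂ Z (b i)) := by
      intro y
      rw [← b.sum_repr y, map_sum]
      refine Submodule.sum_mem _ fun i _ => ?_
      rw [Algebra.smul_def, map_mul, ← IsScalarTower.algebraMap_apply F F₂ Z,
        IsScalarTower.algebraMap_apply F F₁ Z, ← Algebra.smul_def]
      exact Submodule.smul_mem _ _ (Submodule.subset_span ⟨i, rfl⟩)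
    rw [← Algebra.top_toSubmodule, ← hgen, Algebra.adjoin_eq_span]
    refine Submodule.span_le.mpr ?_
    intro z hz
    have : z ∈ (Set.range (algebraMap F₂ Z)) := by
      have h1 : Submonoid.closure (Set.range (algebraMap F₂ Z))
          ≤ (MonoidHom.mrange (algebraMap F₂ Z : F₂ →* Z)) := by
        rw [Submonoid.closure_le]
        rintro _ ⟨y, rfl⟩
        exact ⟨y, rfl⟩
      exact h1 hz
    obtain ⟨y, rfl⟩ := this
    exact hmem y
  have hcard : Fintype.card (Fin (Module.finrank F F₂)) = Module.finrank F₁ Z := by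
    rw [Fintype.card_fin, hdeg]
  let B : Module.Basis (Fin (Module.finrank F F₂)) F₁ Z :=
    basisOfTopLeSpanOfCardEqFinrank (fun i => algebraMap F₂ Z (b i)) hspan hcard
  have hB : ∀ i, B i = algebraMap F₂ Z (b i) := fun i => by
    simp [B]
  rw [Algebra.norm_eq_matrix_det B, Algebra.norm_eq_matrix_det b, RingHom.map_det]
  congr 1
  ext i j
  rw [RingHom.mapMatrix_apply, Matrix.map_apply, Algebra.leftMulMatrix_eq_repr_mul,
    Algebra.leftMulMatrix_eq_repr_mul, hB, ← map_mul]
  conv_lhs => rw [← b.sum_repr (f * b j)]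
  rw [map_sum, map_sum, Finsupp.finsetSum_apply, Finset.sum_eq_single i]
  · rw [Algebra.smul_def, map_mul, ← IsScalarTower.algebraMap_apply F F₂ Z,
      IsScalarTower.algebraMap_apply F F₁ Z, ← Algebra.smul_def, ← hB, map_smul]
    simp [Algebra.smul_def]
  · intro l _ hl
    rw [Algebra.smul_def, map_mul, ← IsScalarTower.algebraMap_apply F F₂ Z,
      IsScalarTower.algebraMap_apply F F₁ Z, ← Algebra.smul_def, ← hB, map_smul]
    simp [Ne.symm hl]
  · simp

/-- Push-pull for cartesian squares of curves. `a₁ : F → F₁`, `a₂ : F → F₂`, `b₁ : F₁ → Z`,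
`b₂ : F₂ → Z`. -/
theorem pushforwardAlong_pullbackAlong_square
    (a₁ : F →ₐ[k] F₁) (a₂ : F →ₐ[k] F₂) (b₁ : F₁ →ₐ[k] Z) (b₂ : F₂ →ₐ[k] Z)
    (ha₁ : a₁.toRingHom.IsIntegral) (ha₂ : a₂.toRingHom.IsIntegral)
    (hb₁ : b₁.toRingHom.IsIntegral) (hb₂ : b₂.toRingHom.IsIntegral)
    (hcomm : b₁.comp a₁ = b₂.comp a₂)
    (hgen : ∀ L : Subfield Z, (∀ x, b₁ x ∈ L) → (∀ x, b₂ x ∈ L) → L = ⊤)
    (hdeg : finrankAlong k b₁ = finrankAlong k a₂) (D : Divisor k F₂) :
    Divisor.pushforwardAlong b₁ hb₁ (Divisor.pullbackAlong b₂ hb₂ D) =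
      Divisor.pullbackAlong a₁ ha₁ (Divisor.pushforwardAlong a₂ ha₂ D) := by
  letI := algebraAlong a₁
  letI := algebraAlong a₂
  letI := algebraAlong b₁
  letI := algebraAlong b₂
  letI := algebraAlong (b₁.comp a₁)
  haveI := isScalarTower_along a₁
  haveI := isScalarTower_along a₂
  haveI := isScalarTower_along b₁
  haveI := isScalarTower_along b₂
  haveI := isScalarTower_along (b₁.comp a₁)
  haveI := isIntegral_along a₁ ha₁
  haveI := isIntegral_along a₂ ha₂
  haveI := isIntegral_along b₁ hb₁
  haveI := isIntegral_along b₂ hb₂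
  haveI : IsScalarTower F F₁ Z := IsScalarTower.of_algebraMap_eq fun x => rfl
  haveI : IsScalarTower F F₂ Z := IsScalarTower.of_algebraMap_eq fun x =>
    DFunLike.congr_fun hcomm x
  haveI : FiniteDimensional F F₁ := finiteDimensional_of_isFunctionField (k := k)
  haveI : FiniteDimensional F F₂ := finiteDimensional_of_isFunctionField (k := k)
  haveI : FiniteDimensional F₁ Z := finiteDimensional_of_isFunctionField (k := k)
  haveI : FiniteDimensional F₂ Z := finiteDimensional_of_isFunctionField (k := k)
  haveI : FiniteDimensional F Z := finiteDimensional_of_isFunctionField (k := k)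
  refine pushforward_pullback_square (F := F) (F₁ := F₁) (F₂ := F₂) (Z := Z)
    (fun f => norm_eq_of_compositum ?_ hdeg f) D
  -- the subalgebra generated is a field
  set A := Algebra.adjoin F₁ (Set.range (algebraMap F₂ Z)) with hA
  have hfield : ∀ x ∈ A, x⁻¹ ∈ A := fun x hx =>
    A.inv_mem_of_algebraic (x := ⟨x, hx⟩) (Algebra.IsAlgebraic.isAlgebraic x)
  let L : Subfield Z := { A.toSubring with inv_mem' := hfield }
  have hL : L = ⊤ := hgen L (fun x => A.algebraMap_mem x)
    (fun x => Algebra.subset_adjoin ⟨x, rfl⟩)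
  rw [eq_top_iff]
  intro z _
  have : z ∈ L := hL ▸ Subfield.mem_top z
  exact this

end SquareAlong

end Fermat.Agent.Curves
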