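import Fermat.Agent.Curves.Basic

/-!
# Weak approximation for places
-/

set_option autoImplicit false
set_option linter.style.haveILetI false

noncomputable section

namespace Fermat.Agent.Curves

open AlgebraicCurve IntermediateField WithZero

variable {k F : Type*} [Field k] [Field F] [Algebra k F]

/-- Discrete valuation rings are maximal subrings. -/
theorem eq_of_le {v w : Place k F} (h : v.toValuationSubring ≤ w.toValuationSubring) : v = w := by
  refine Place.ext (le_antisymm h ?_)
  intro x hx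
  by_contra hxv
  have hx0 : x ≠ 0 := fun h0 => hxv (h0 ▸ zero_mem _)
  have hneg : v.ord x < 0 := by
    by_contra hge
    exact hxv ((mem_iff_ord v hx0).mpr (not_lt.mp hge))
  obtain ⟨f, hf⟩ := exists_not_mem w
  apply hf
  rcases eq_or_ne f 0 with rfl | hf0
  · exact zero_mem _
  set m : ℕ := (v.ord f).natAbs with hm
  have h1 : f * (x ^ m)⁻¹ ∈ v.toValuationSubring := by
    rw [mem_iff_ord v (mul_ne_zero hf0 (inv_ne_zero (pow_ne_zero _ hx0))),
      v.ord_mul hf0 (inv_ne_zero (pow_ne_zero _ hx0)), v.ord_inv, ord_pow]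
    have : (m : ℤ) * v.ord x ≤ (m : ℤ) * (-1) := mul_le_mul_of_nonneg_left (by omega) (by omega)
    omega
  have h2 : f = f * (x ^ m)⁻¹ * x ^ m := by
    field_simp
  rw [h2]
  exact mul_mem (h h1) (pow_mem hx m)

theorem exists_pos_neg {v w : Place k F} (h : v ≠ w) :
    ∃ u : F, u ≠ 0 ∧ 0 < v.ord u ∧ w.ord u < 0 := by
  obtain ⟨f, hfv, hfw⟩ := SetLike.not_le_iff_exists.mp (fun hle => h (eq_of_le hle))
  obtain ⟨g, hgw, hgv⟩ := SetLike.not_le_iff_exists.mp (fun hle => h (eq_of_le hle).symm)
  have hf0 : f ≠ 0 := fun h0 => hfw (h0 ▸ zero_mem _)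
  have hg0 : g ≠ 0 := fun h0 => hgv (h0 ▸ zero_mem _)
  rw [mem_iff_ord _ hf0] at hfv hfw
  rw [mem_iff_ord _ hg0] at hgv hgw
  refine ⟨f / g, div_ne_zero hf0 hg0, ?_, ?_⟩
  · rw [ord_div v hf0 hg0]
    omega
  · rw [ord_div w hf0 hg0]
    omega

theorem ord_add_eq_left (v : Place k F) {f g : F} (hf : f ≠ 0)
    (hg : g = 0 ∨ v.ord f < v.ord g) : f + g ≠ 0 ∧ v.ord (f + g) = v.ord f := by
  have h1 : v.adicValuation g < v.adicValuation f := by
    rw [v.adicValuation_eq_exp_neg_ord hf]
    rcases hg with rfl | hg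
    · simp
    · rcases eq_or_ne g 0 with rfl | hg0
      · simp
      · rw [v.adicValuation_eq_exp_neg_ord hg0, exp_lt_exp]
        omega
  have h2 : v.adicValuation (f + g) = v.adicValuation f :=
    Valuation.map_add_eq_of_lt_left _ h1
  have h3 : f + g ≠ 0 := by
    rw [← (v.adicValuation).ne_zero_iff, h2]
    exact v.adicValuation_ne_zero hf
  refine ⟨h3, ?_⟩
  unfold Place.ord
  rw [h2]

theorem ord_add_eq_right (v : Place k F) {f g : F} (hf : f ≠ 0)
    (hg : g = 0 ∨ v.ord f < v.ord g) : g + f ≠ 0 ∧ v.ord (g + f) = v.ord f := by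
  rw [add_comm g f]
  exact ord_add_eq_left v hf hg

theorem exists_pos_neg_finset (v : Place k F) (S : Finset (Place k F)) (hv : v ∉ S) :
    ∃ u : F, u ≠ 0 ∧ 0 < v.ord u ∧ ∀ w ∈ S, w.ord u < 0 := by
  classical
  induction S using Finset.induction_on with
  | empty =>
    obtain ⟨f, hf0, hf⟩ := exists_ord_eq v 1
    exact ⟨f, hf0, by omega, by simp⟩
  | insert w S hw ih =>
    obtain ⟨f, hf0, hfv, hfS⟩ := ih (fun h => hv (Finset.mem_insert_of_mem h))
    obtain ⟨g, hg0, hgv, hgw⟩ := exists_pos_neg (v := v) (w := w)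
      (fun h => hv (h ▸ Finset.mem_insert_self _ _))
    by_cases hfw : w.ord f < 0
    · refine ⟨f, hf0, hfv, fun w' hw' => ?_⟩
      rcases Finset.mem_insert.mp hw' with rfl | h
      · exact hfw
      · exact hfS w' h
    · -- choose `r` large
      set r : ℕ := 1 + ∑ w' ∈ S, (w'.ord f).natAbs with hr
      have hrS : ∀ w' ∈ S, (w'.ord f).natAbs < r := by
        intro w' hw'
        have := Finset.single_le_sum (f := fun w' : Place k F => (w'.ord f).natAbs)
          (fun _ _ => Nat.zero_le _) hw'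
        omega
      have hgr0 : g ^ r ≠ 0 := pow_ne_zero _ hg0
      have hr1 : 1 ≤ r := by omega
      clear_value r
      have hS : ∀ w' ∈ S, f + g ^ r ≠ 0 ∧ w'.ord (f + g ^ r) < 0 := by
        intro w' hw'
        have h1 := hrS w' hw'
        have h2 := hfS w' hw'
        rcases lt_trichotomy (w'.ord g) 0 with h | h | h
        · have h3 : w'.ord (g ^ r) < w'.ord f := by
            rw [ord_pow]
            have : (r : ℤ) * w'.ord g ≤ (r : ℤ) * (-1) :=
              mul_le_mul_of_nonneg_left (by omega) (by omega)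
            omega
          have := ord_add_eq_right w' hgr0 (Or.inr h3)
          exact ⟨this.1, by rw [this.2]; omega⟩
        · have h3 : w'.ord f < w'.ord (g ^ r) := by
            rw [ord_pow, h]
            omega
          have := ord_add_eq_left w' hf0 (Or.inr h3)
          exact ⟨this.1, by rw [this.2]; omega⟩
        · have h3 : w'.ord f < w'.ord (g ^ r) := by
            rw [ord_pow]
            have : 0 ≤ (r : ℤ) * w'.ord g := by positivity
            omega
          have := ord_add_eq_left w' hf0 (Or.inr h3)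
          exact ⟨this.1, by rw [this.2]; omega⟩
      have hw1 : f + g ^ r ≠ 0 ∧ w.ord (f + g ^ r) < 0 := by
        have h3 : w.ord (g ^ r) < w.ord f := by
          rw [ord_pow]
          have : (r : ℤ) * w.ord g ≤ (r : ℤ) * (-1) :=
            mul_le_mul_of_nonneg_left (by omega) (by omega)
          omega
        have := ord_add_eq_right w hgr0 (Or.inr h3)
        refine ⟨this.1, ?_⟩
        rw [this.2, ord_pow]
        exact mul_neg_of_pos_of_neg (by omega) hgw
      refine ⟨f + g ^ r, hw1.1, ?_, fun w' hw' => ?_⟩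
      · refine lt_of_lt_of_le ?_ (ord_add v hw1.1 hf0 hgr0)
        rw [lt_min_iff]
        refine ⟨hfv, ?_⟩
        rw [ord_pow]
        positivity
      · rcases Finset.mem_insert.mp hw' with rfl | h
        · exact hw1.2
        · exact (hS w' h).2

/-- An element close to `1` at `v` and close to `0` at the places in `S`. -/
theorem exists_near_one (v : Place k F) (S : Finset (Place k F)) (hv : v ∉ S) (n : ℕ) :
    ∃ e : F, v.adicValuation (e - 1) ≤ exp (-(n : ℤ)) ∧
      ∀ w ∈ S, w.adicValuation e ≤ exp (-(n : ℤ)) := by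
  obtain ⟨u, hu0, huv, huS⟩ := exists_pos_neg_finset v S hv
  set s := n + 1 with hs
  have hus0 : u ^ s ≠ 0 := pow_ne_zero _ hu0
  have huv' : (n : ℤ) < v.ord (u ^ s) := by
    rw [ord_pow]
    have : (s : ℤ) * 1 ≤ (s : ℤ) * v.ord u := mul_le_mul_of_nonneg_left (by omega) (by omega)
    omega
  have h1 := ord_add_eq_left v (one_ne_zero (α := F)) (g := u ^ s)
    (Or.inr (by rw [v.ord_one]; omega))
  rw [v.ord_one] at h1
  refine ⟨(1 + u ^ s)⁻¹, ?_, fun w hw => ?_⟩
  · have : (1 + u ^ s)⁻¹ - 1 = -(u ^ s / (1 + u ^ s)) := by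
      have := h1.1
      field_simp
      ring
    rw [this, Valuation.map_neg, val_le_exp_iff v (div_ne_zero hus0 h1.1),
      ord_div v hus0 h1.1, h1.2]
    omega
  · rw [val_le_exp_iff w (inv_ne_zero h1.1), w.ord_inv]
    have h2 := huS w hw
    have h3 : w.ord (u ^ s) ≤ -(s : ℤ) := by
      rw [ord_pow]
      have : (s : ℤ) * w.ord u ≤ (s : ℤ) * (-1) :=
        mul_le_mul_of_nonneg_left (by omega) (by omega)
      omega
    have h4 := ord_add_eq_right w hus0 (g := 1) (Or.inr (by rw [w.ord_one]; omega))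
    rw [h4.2]
    omega

/-- **Weak approximation.** -/
theorem weak_approx (S : Finset (Place k F)) (a : Place k F → F) (n : ℕ) :
    ∃ f : F, ∀ v ∈ S, v.adicValuation (f - a v) ≤ exp (-(n : ℤ)) := by
  classical
  -- bound for the poles of all `a v` at all `w`
  obtain ⟨m, hm⟩ : ∃ m : ℕ, ∀ v ∈ S, ∀ w ∈ S, w.adicValuation (a v) ≤ exp (m : ℤ) := by
    refine ⟨∑ v ∈ S, ∑ w ∈ S, (w.ord (a v)).natAbs, fun v hv w hw => ?_⟩
    rcases eq_or_ne (a v) 0 with h0 | h0
    · simp [h0]
    rw [w.adicValuation_eq_exp_neg_ord h0, exp_le_exp]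
    have h1 := Finset.single_le_sum (f := fun v => ∑ w ∈ S, (w.ord (a v)).natAbs)
      (fun _ _ => Nat.zero_le _) hv
    have h2 := Finset.single_le_sum (f := fun w : Place k F => (w.ord (a v)).natAbs)
      (fun _ _ => Nat.zero_le _) hw
    omega
  choose! e he1 he2 using fun (v : Place k F) (hv : v ∉ S.erase v) =>
    exists_near_one v (S.erase v) hv (n + m)
  have hnot : ∀ v : Place k F, v ∉ S.erase v := fun v => by simp
  refine ⟨∑ v ∈ S, a v * e v, fun w hw => ?_⟩
  have h1 : ∑ v ∈ S, a v * e v - a w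
      = a w * (e w - 1) + ∑ v ∈ S.erase w, a v * e v := by
    rw [← Finset.add_sum_erase S _ hw]
    ring
  rw [h1]
  refine (Valuation.map_add _ _ _).trans (max_le ?_ ?_)
  · rw [map_mul]
    calc w.adicValuation (a w) * w.adicValuation (e w - 1)
        ≤ exp (m : ℤ) * exp (-((n + m : ℕ) : ℤ)) :=
          mul_le_mul' (hm w hw w hw) (he1 w (hnot w))
      _ = exp (-(n : ℤ)) := by
          rw [← exp_add]
          congr 1
          push_cast
          ring
  · refine Valuation.map_sum_le _ fun v hv => ?_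
    rw [map_mul]
    have hvS := Finset.mem_of_mem_erase hv
    have hne := Finset.ne_of_mem_erase hv
    calc w.adicValuation (a v) * w.adicValuation (e v)
        ≤ exp (m : ℤ) * exp (-((n + m : ℕ) : ℤ)) :=
          mul_le_mul' (hm v hvS w hw) (he2 v (hnot v) w (Finset.mem_erase.mpr ⟨hne.symm, hw⟩))
      _ = exp (-(n : ℤ)) := by
          rw [← exp_add]
          congr 1
          push_cast
          ring

/-- Weak approximation with prescribed orders. -/
theorem exists_ord_eq_finset (S : Finset (Place k F)) (n : Place k F → ℤ) :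
    ∃ f : F, f ≠ 0 ∧ ∀ v ∈ S, v.ord f = n v := by
  classical
  rcases S.eq_empty_or_nonempty with rfl | ⟨v₀, hv₀⟩
  · exact ⟨1, one_ne_zero, by simp⟩
  choose a ha0 ha using fun v : Place k F => exists_ord_eq v (n v)
  obtain ⟨f, hf⟩ := weak_approx S a (1 + ∑ v ∈ S, (n v).natAbs)
  have key : ∀ v ∈ S, f ≠ 0 ∧ v.ord f = n v := by
    intro v hv
    have h1 := hf v hv
    have h2 := Finset.single_le_sum (f := fun v => (n v).natAbs)
      (fun _ _ => Nat.zero_le _) hv
    have h3 : f - a v = 0 ∨ v.ord (a v) < v.ord (f - a v) := by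
      rcases eq_or_ne (f - a v) 0 with h | h
      · exact Or.inl h
      · right
        rw [val_le_exp_iff v h] at h1
        rw [ha v]
        omega
    have h4 := ord_add_eq_left v (ha0 v) h3
    rw [add_sub_cancel] at h4
    rw [ha v] at h4
    exact h4
  exact ⟨f, (key v₀ hv₀).1, fun v hv => (key v hv).2⟩

end Fermat.Agent.Curves
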