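import Mathlib
import Fermat.Prelude.Def_AlgebraicCurve_Repartitions
import Fermat.Prelude.Def_AlgebraicCurve_Correspondence
import Fermat.Prelude.Def_AlgebraicCurve_IsCurveOver

/-!
# Function fields of one variable over an algebraically closed field: basics
-/

set_option autoImplicit false
set_option linter.style.haveILetI false

noncomputable section

namespace Fermat.Agent.Curves

open AlgebraicCurve IntermediateField WithZero

/-- `F` is a function field of one variable over `k`. -/
class IsFunctionField (k F : Type*) [Field k] [Field F] [Algebra k F] : Prop where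
  exists_transcendental : ∃ t : F, Transcendental k t ∧ FiniteDimensional k⟮t⟯ F

section Field

variable {k F : Type*} [Field k] [Field F] [Algebra k F]

theorem essFiniteType [h : IsFunctionField k F] : Algebra.EssFiniteType k F := by
  obtain ⟨t, ht, hfin⟩ := h.exists_transcendental
  have h1 : Algebra.EssFiniteType k k⟮t⟯ := by
    rw [IntermediateField.essFiniteType_iff]
    exact ⟨{t}, by simp⟩
  have h2 : Algebra.EssFiniteType k⟮t⟯ F := inferInstance
  exact Algebra.EssFiniteType.comp k k⟮t⟯ F

theorem trdeg_eq_one [h : IsFunctionField k F] : Algebra.trdeg k F = 1 := by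
  obtain ⟨t, ht, hfin⟩ := h.exists_transcendental
  have hind : AlgebraicIndependent k (fun _ : Unit => t) := by
    rw [algebraicIndependent_unique_type_iff]
    exact ht
  have hb : IsTranscendenceBasis k (fun _ : Unit => t) := by
    rw [hind.isTranscendenceBasis_iff_isAlgebraic]
    have : Algebra.IsAlgebraic k⟮t⟯ F := inferInstance
    rw [Set.range_const]
    open scoped algebraAdjoinAdjoin in
    have h3 : Algebra.IsAlgebraic (Algebra.adjoin k {t}) k⟮t⟯ := inferInstance
    have h4 : IsScalarTower (Algebra.adjoin k {t}) k⟮t⟯ F := by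
      refine IsScalarTower.of_algebraMap_eq fun x => ?_
      rfl
    exact Algebra.IsAlgebraic.trans (Algebra.adjoin k {t}) k⟮t⟯ F
  have := hb.lift_cardinalMk_eq_trdeg
  simpa using this.symm

theorem isAlgebraic_adjoin_simple [h : IsFunctionField k F] {x : F}
    (hx : Transcendental k x) : Algebra.IsAlgebraic k⟮x⟯ F := by
  have hind : AlgebraicIndependent k (fun _ : Unit => x) := by
    rw [algebraicIndependent_unique_type_iff]
    exact hx
  have hb : IsTranscendenceBasis k (fun _ : Unit => x) := by
    apply AlgebraicIndependent.isTranscendenceBasis_of_lift_trdeg_le_of_finite hind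
    rw [trdeg_eq_one]
    simp
  have := hb.isAlgebraic_field
  rwa [Set.range_const] at this

theorem finiteDimensional_adjoin_simple [h : IsFunctionField k F] {x : F}
    (hx : Transcendental k x) : FiniteDimensional k⟮x⟯ F := by
  have halg := isAlgebraic_adjoin_simple hx
  haveI := essFiniteType (k := k) (F := F)
  haveI : Algebra.EssFiniteType k⟮x⟯ F := Algebra.EssFiniteType.of_comp k k⟮x⟯ F
  obtain ⟨s, hs⟩ := IntermediateField.fg_top k⟮x⟯ F
  have : FiniteDimensional k⟮x⟯ (IntermediateField.adjoin k⟮x⟯ (s : Set F)) :=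
    IntermediateField.finiteDimensional_adjoin fun y _ =>
      (Algebra.IsAlgebraic.isAlgebraic y).isIntegral
  rw [hs] at this
  exact (IntermediateField.topEquiv (F := k⟮x⟯) (E := F)).toLinearEquiv.finiteDimensional

end Field

section Ext

variable {k F F' : Type*} [Field k] [Field F] [Field F'] [Algebra k F]
    [Algebra k F'] [Algebra F F'] [IsScalarTower k F F']

/-- The map `k(t) → k(φ t)`. -/
def adjoinMap (k : Type*) {F F' : Type*} [Field k] [Field F] [Field F'] [Algebra k F]
    [Algebra k F'] (φ : F →ₐ[k] F') (t : F) : k⟮t⟯ →ₐ[k] k⟮φ t⟯ :=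
  (φ.comp k⟮t⟯.val).codRestrict k⟮φ t⟯.toSubalgebra (by
    intro x
    have : φ x ∈ (k⟮t⟯).map φ := ⟨x, x.2, rfl⟩
    rw [IntermediateField.adjoin_map, Set.image_singleton] at this
    exact this)

omit [Algebra F F'] [IsScalarTower k F F'] in
@[simp]
theorem coe_adjoinMap (φ : F →ₐ[k] F') (t : F) (x : k⟮t⟯) :
    (adjoinMap k φ t x : F') = φ x := rfl

omit [Algebra F F'] [IsScalarTower k F F'] in
theorem adjoinMap_surjective (φ : F →ₐ[k] F') (t : F) :
    Function.Surjective (adjoinMap k φ t) := by
  rintro ⟨y, hy⟩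
  have h := IntermediateField.adjoin_map k {t} φ
  rw [Set.image_singleton] at h
  rw [← h] at hy
  obtain ⟨x, hx, rfl⟩ := hy
  exact ⟨⟨x, hx⟩, Subtype.ext rfl⟩

theorem finiteDimensional_map [FiniteDimensional F F'] (t : F) [FiniteDimensional k⟮t⟯ F] :
    FiniteDimensional k⟮algebraMap F F' t⟯ F' := by
  let φ : F →ₐ[k] F' := IsScalarTower.toAlgHom k F F'
  change FiniteDimensional k⟮φ t⟯ F'
  letI : Algebra k⟮t⟯ k⟮φ t⟯ := (adjoinMap k φ t).toRingHom.toAlgebra
  haveI : IsScalarTower k⟮t⟯ k⟮φ t⟯ F' := IsScalarTower.of_algebraMap_eq fun x => rfl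
  haveI : FiniteDimensional k⟮t⟯ F' := Module.Finite.trans F F'
  exact Module.Finite.of_restrictScalars_finite k⟮t⟯ k⟮φ t⟯ F'

theorem finrank_map [FiniteDimensional F F'] (t : F) :
    Module.finrank k⟮algebraMap F F' t⟯ F' = Module.finrank F F' * Module.finrank k⟮t⟯ F := by
  let φ : F →ₐ[k] F' := IsScalarTower.toAlgHom k F F'
  change Module.finrank k⟮φ t⟯ F' = _
  let e : k⟮t⟯ ≃+* k⟮φ t⟯ := RingEquiv.ofBijective (adjoinMap k φ t)
    ⟨(adjoinMap k φ t).toRingHom.injective, adjoinMap_surjective φ t⟩
  rw [mul_comm, Module.finrank_mul_finrank k⟮t⟯ F F']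
  refine (Algebra.finrank_eq_of_equiv_equiv e (RingEquiv.refl F') ?_).symm
  ext x
  rfl

variable (k F F') in
/-- A finite extension of a function field is a function field. -/
theorem IsFunctionField.of_finite [h : IsFunctionField k F]
    [FiniteDimensional F F'] : IsFunctionField k F' := by
  obtain ⟨t, ht, hfin⟩ := h.exists_transcendental
  refine ⟨algebraMap F F' t, ?_, finiteDimensional_map t⟩
  rwa [transcendental_algebraMap_iff (algebraMap F F').injective]

/-- An extension of function fields is finite. -/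
theorem finiteDimensional_of_isFunctionField [h : IsFunctionField k F]
    [h' : IsFunctionField k F'] : FiniteDimensional F F' := by
  obtain ⟨t, ht, hfin⟩ := h.exists_transcendental
  let φ : F →ₐ[k] F' := IsScalarTower.toAlgHom k F F'
  have ht' : Transcendental k (φ t) := by
    change Transcendental k (algebraMap F F' t)
    rwa [transcendental_algebraMap_iff (algebraMap F F').injective]
  have hfin' := finiteDimensional_adjoin_simple ht'
  letI : Algebra k⟮φ t⟯ F := ((k⟮t⟯.val.toRingHom).comp
    (RingEquiv.ofBijective (adjoinMap k φ t)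
    ⟨(adjoinMap k φ t).toRingHom.injective, adjoinMap_surjective φ t⟩).symm.toRingHom).toAlgebra
  haveI : IsScalarTower k⟮φ t⟯ F F' := by
    refine IsScalarTower.of_algebraMap_eq fun x => ?_
    obtain ⟨y, rfl⟩ := adjoinMap_surjective φ t x
    change φ (y : F) = algebraMap F F' (((RingEquiv.ofBijective (adjoinMap k φ t)
      ⟨(adjoinMap k φ t).toRingHom.injective, adjoinMap_surjective φ t⟩).symm
        (adjoinMap k φ t y) : k⟮t⟯) : F)
    have : (RingEquiv.ofBijective (adjoinMap k φ t)
      ⟨(adjoinMap k φ t).toRingHom.injective, adjoinMap_surjective φ t⟩).symm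
        (adjoinMap k φ t y) = y :=
      RingEquiv.symm_apply_apply (RingEquiv.ofBijective (adjoinMap k φ t)
        ⟨(adjoinMap k φ t).toRingHom.injective, adjoinMap_surjective φ t⟩) y
    rw [this]
    rfl
  exact Module.Finite.of_restrictScalars_finite k⟮φ t⟯ F F'

end Ext

section Place

variable {k F : Type*} [Field k] [Field F] [Algebra k F] (v : Place k F)

theorem mem_iff_val {f : F} : f ∈ v.toValuationSubring ↔ v.adicValuation f ≤ 1 := by
  refine ⟨v.adicValuation_le_one_of_mem, fun h => ?_⟩
  by_contra hf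
  have hf0 : f ≠ 0 := fun h0 => hf (h0 ▸ zero_mem _)
  have h1 : f⁻¹ ∈ v.toValuationSubring := (v.toValuationSubring.mem_or_inv_mem f).resolve_left hf
  have h2 : v.adicValuation f⁻¹ ≤ 1 := v.adicValuation_le_one_of_mem h1
  have h3 : v.adicValuation f⁻¹ = 1 := by
    refine le_antisymm h2 ?_
    rw [map_inv₀]
    exact (one_le_inv₀ (zero_lt_iff.mpr (v.adicValuation_ne_zero hf0))).mpr h
  have h4 := (v.adicValuation_coe_eq_one_iff ⟨f⁻¹, h1⟩).mp h3
  obtain ⟨b, hb⟩ := isUnit_iff_exists_inv.mp h4
  have hb' : f⁻¹ * (b : F) = 1 := congrArg Subtype.val hb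
  have : (b : F) = f := by
    field_simp at hb'
    exact hb'
  exact hf (this ▸ b.2)

theorem mem_iff_ord {f : F} (hf : f ≠ 0) : f ∈ v.toValuationSubring ↔ 0 ≤ v.ord f := by
  rw [mem_iff_val, v.adicValuation_le_one_iff, or_iff_right hf]

theorem val_lt_one_iff {f : F} : v.adicValuation f < 1 ↔ f = 0 ∨ 0 < v.ord f := by
  rcases eq_or_ne f 0 with rfl | hf
  · simp
  · rw [or_iff_right hf, v.adicValuation_eq_exp_neg_ord hf, ← exp_zero, exp_lt_exp]
    omega

theorem val_eq_one_iff {f : F} (hf : f ≠ 0) : v.adicValuation f = 1 ↔ v.ord f = 0 := by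
  rw [v.adicValuation_eq_exp_neg_ord hf, ← exp_zero, exp_inj]
  omega

theorem val_le_exp_iff {f : F} (hf : f ≠ 0) {n : ℤ} :
    v.adicValuation f ≤ exp (-n) ↔ n ≤ v.ord f := by
  rw [v.adicValuation_le_exp_iff, or_iff_right hf]
  omega

theorem val_eq_exp_iff {f : F} {n : ℤ} :
    v.adicValuation f = exp (-n) ↔ f ≠ 0 ∧ n = v.ord f := by
  rcases eq_or_ne f 0 with rfl | hf
  · simp only [map_zero, ne_eq, not_true_eq_false, false_and, iff_false]
    exact exp_ne_zero.symm
  · rw [v.adicValuation_eq_exp_neg_ord hf, exp_inj]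
    simp only [ne_eq, hf, not_false_eq_true, true_and]
    omega

theorem ord_algebraMap (a : k) : v.ord (algebraMap k F a) = 0 := by
  rcases eq_or_ne a 0 with rfl | ha
  · simp
  have ha' : algebraMap k F a ≠ 0 := by simpa using ha
  have h1 := (mem_iff_ord v ha').mp (v.algebraMap_mem' a)
  have h2 := (mem_iff_ord v (f := algebraMap k F a⁻¹) (by simpa using ha)).mp
    (v.algebraMap_mem' a⁻¹)
  rw [map_inv₀, v.ord_inv] at h2
  omega

theorem val_algebraMap {a : k} (ha : a ≠ 0) : v.adicValuation (algebraMap k F a) = 1 := by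
  rw [val_eq_one_iff v (by simpa using ha), ord_algebraMap]

theorem exists_ord_eq (n : ℤ) : ∃ f : F, f ≠ 0 ∧ v.ord f = n := by
  obtain ⟨π, hπ⟩ := IsDiscreteValuationRing.exists_irreducible v.toValuationSubring
  have h0 : (π : F) ≠ 0 := by
    simpa [ne_eq, ZeroMemClass.coe_eq_zero] using hπ.ne_zero
  refine ⟨(π : F) ^ n, zpow_ne_zero _ h0, ?_⟩
  rw [v.ord_zpow, v.ord_coe_irreducible hπ, mul_one]

theorem ord_add {f g : F} (hfg : f + g ≠ 0) (hf : f ≠ 0) (hg : g ≠ 0) :
    min (v.ord f) (v.ord g) ≤ v.ord (f + g) := by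
  rw [← val_le_exp_iff v hfg]
  refine (Valuation.map_add _ _ _).trans (max_le ?_ ?_)
  · rw [val_le_exp_iff v hf]
    exact min_le_left _ _
  · rw [val_le_exp_iff v hg]
    exact min_le_right _ _

theorem ord_pow (f : F) (n : ℕ) : v.ord (f ^ n) = n * v.ord f := by
  have := v.ord_zpow f n
  rwa [zpow_natCast] at this

theorem ord_neg (f : F) : v.ord (-f) = v.ord f := by
  unfold Place.ord
  rw [Valuation.map_neg]

theorem ord_div {f g : F} (hf : f ≠ 0) (hg : g ≠ 0) : v.ord (f / g) = v.ord f - v.ord g := by
  rw [div_eq_mul_inv, v.ord_mul hf (inv_ne_zero hg), v.ord_inv]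
  ring

theorem exists_not_mem : ∃ f : F, f ∉ v.toValuationSubring := by
  by_contra! h
  exact v.ne_top' (SetLike.ext fun x => ⟨fun _ => ValuationSubring.mem_top x, fun _ => h x⟩)

/-- An intermediate field over which `F` is algebraic is not contained in `O_v`. -/
theorem exists_mem_notMem_of_isAlgebraic (E : IntermediateField k F) [Algebra.IsAlgebraic E F] :
    ∃ x ∈ E, x ∉ v.toValuationSubring := by
  by_contra! h
  obtain ⟨f, hf⟩ := exists_not_mem v
  apply hf
  letI : Algebra E v.toValuationSubring :=
    (E.val.toRingHom.codRestrict v.toValuationSubring.toSubring (fun x => h x x.2)).toAlgebra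
  haveI : IsScalarTower E v.toValuationSubring F :=
    IsScalarTower.of_algebraMap_eq fun f => rfl
  have hx : IsIntegral v.toValuationSubring f :=
    (Algebra.IsIntegral.isIntegral (R := E) f).tower_top
  obtain ⟨y, hy⟩ := IsIntegrallyClosed.isIntegral_iff.mp hx
  exact hy ▸ y.2

theorem isAlgebraic_residueField [IsFunctionField k F] :
    Algebra.IsAlgebraic k v.ResidueField := by
  refine ⟨fun ξ => ?_⟩
  by_contra hξ
  obtain ⟨a, rfl⟩ := IsLocalRing.residue_surjective ξ
  have haeval : ∀ p : Polynomial k, IsLocalRing.residue _ (Polynomial.aeval a p)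
      = Polynomial.aeval (IsLocalRing.residue _ a) p := by
    intro p
    have := Polynomial.aeval_algHom_apply
      (IsScalarTower.toAlgHom k v.toValuationSubring v.ResidueField) a p
    exact this.symm
  have hunit : ∀ p : Polynomial k, p ≠ 0 → IsUnit (Polynomial.aeval a p) := by
    intro p hp
    rw [← IsLocalRing.residue_ne_zero_iff_isUnit, haeval]
    intro h0
    exact hξ ⟨p, hp, h0⟩
  have hcoe : ∀ p : Polynomial k, ((Polynomial.aeval a p : v.toValuationSubring) : F)
      = Polynomial.aeval (a : F) p := by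
    intro p
    exact (Polynomial.aeval_algebraMap_apply F a p).symm
  have htr : Transcendental k (a : F) := by
    rintro ⟨p, hp, hp0⟩
    rw [← hcoe] at hp0
    have := hunit p hp
    have h0 : (Polynomial.aeval a p : v.toValuationSubring) = 0 := Subtype.ext hp0
    rw [h0] at this
    exact not_isUnit_zero this
  haveI := isAlgebraic_adjoin_simple htr
  obtain ⟨x, hx, hxv⟩ := exists_mem_notMem_of_isAlgebraic v k⟮(a : F)⟯
  apply hxv
  rw [IntermediateField.mem_adjoin_simple_iff] at hx
  obtain ⟨r, s, rfl⟩ := hx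
  rcases eq_or_ne s 0 with rfl | hs
  · simp
  obtain ⟨u, hu⟩ := isUnit_iff_exists_inv.mp (hunit s hs)
  have hu' : Polynomial.aeval (a : F) s * (u : F) = 1 := by
    rw [← hcoe]
    exact congrArg Subtype.val hu
  have hs0 : Polynomial.aeval (a : F) s ≠ 0 := fun h0 => by
    rw [h0, zero_mul] at hu'
    exact zero_ne_one hu'
  have : Polynomial.aeval (a : F) r / Polynomial.aeval (a : F) s
      = Polynomial.aeval (a : F) r * (u : F) := by
    field_simp
    rw [mul_assoc, hu', mul_one]
  rw [this, ← hcoe]
  exact mul_mem (Subtype.mem _) u.2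

variable [IsAlgClosed k] [IsFunctionField k F]

theorem residueField_bijective : Function.Bijective (algebraMap k v.ResidueField) := by
  haveI := isAlgebraic_residueField v
  exact IsAlgClosed.algebraMap_bijective_of_isIntegral

instance finite_residueField : Module.Finite k v.ResidueField :=
  Module.Finite.of_surjective (Algebra.linearMap k v.ResidueField) (residueField_bijective v).2

theorem deg_eq_one : v.deg = 1 := v.deg_eq_one_of_isAlgClosed_of_finite

/-- Every `f` regular at `v` has a value in `k`. -/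
theorem exists_residue {f : F} (hf : v.adicValuation f ≤ 1) :
    ∃ c : k, v.adicValuation (f - algebraMap k F c) < 1 := by
  have hf' := (mem_iff_val v).mpr hf
  obtain ⟨c, hc⟩ := (residueField_bijective v).2 (IsLocalRing.residue _ ⟨f, hf'⟩)
  refine ⟨c, ?_⟩
  have h1 : IsLocalRing.residue _ ((⟨f, hf'⟩ : v.toValuationSubring)
      - algebraMap k v.toValuationSubring c) = 0 := by
    rw [map_sub, ← hc, sub_eq_zero]
    rfl
  rw [IsLocalRing.residue_eq_zero_iff, IsLocalRing.mem_maximalIdeal, mem_nonunits_iff,
    ← v.adicValuation_coe_eq_one_iff] at h1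
  exact lt_of_le_of_ne (v.adicValuation_le_one_of_mem
    ((⟨f, hf'⟩ : v.toValuationSubring) - algebraMap k v.toValuationSubring c).2) h1

end Place

section Restrict

variable {k F F' : Type*} [Field k] [Field F] [Field F'] [Algebra k F]
    [Algebra k F'] [Algebra F F'] [IsScalarTower k F F'] [IsAlgClosed k]
    [IsFunctionField k F] [IsFunctionField k F'] [Algebra.IsIntegral F F']

theorem inertiaDeg_eq_one (w : Place k F') : w.inertiaDeg F = 1 := by
  have h := w.deg_restrict_mul_inertiaDeg (F := F)
  rw [deg_eq_one, deg_eq_one, one_mul] at h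
  exact h

end Restrict

end Fermat.Agent.Curves
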