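import Fermat.Agent.Curves.Exist

/-!
# The degree of the divisor of zeros
-/

set_option autoImplicit false
set_option linter.style.haveILetI false

noncomputable section

namespace Fermat.Agent.Curves

open AlgebraicCurve IntermediateField WithZero

variable {k F : Type*} [Field k] [Field F] [Algebra k F]

theorem adjoin_gen (x : F) (y : k⟮x⟯) : ∃ r s : Polynomial k,
    y = Polynomial.aeval (⟨x, IntermediateField.mem_adjoin_simple_self k x⟩ : k⟮x⟯) r /
      Polynomial.aeval (⟨x, IntermediateField.mem_adjoin_simple_self k x⟩ : k⟮x⟯) s := by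
  obtain ⟨r, s, h⟩ := (IntermediateField.mem_adjoin_simple_iff k (y : F)).mp y.2
  refine ⟨r, s, Subtype.ext ?_⟩
  rw [h]
  have haux : ∀ p : Polynomial k, ((Polynomial.aeval
      (⟨x, IntermediateField.mem_adjoin_simple_self k x⟩ : k⟮x⟯) p : k⟮x⟯) : F)
      = Polynomial.aeval x p := by
    intro p
    exact (Polynomial.aeval_algebraMap_apply F
      (⟨x, IntermediateField.mem_adjoin_simple_self k x⟩ : k⟮x⟯) p).symm
  rw [← haux, ← haux]
  rfl

section

variable [IsFunctionField k F]

/-- The inequality for zeros. -/
theorem sum_ord_le {x : F} (hx : Transcendental k x) (S : Finset (Place k F))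
    (hS : ∀ w ∈ S, 0 < w.ord x) : ∑ w ∈ S, w.ord x ≤ Module.finrank k⟮x⟯ F := by
  classical
  haveI := finiteDimensional_adjoin_simple hx
  rcases S.eq_empty_or_nonempty with rfl | ⟨w₀, hw₀⟩
  · simp
  have hx0 : x ≠ 0 := by
    rintro rfl
    exact hx (isAlgebraic_zero)
  set x' : k⟮x⟯ := ⟨x, IntermediateField.mem_adjoin_simple_self k x⟩ with hx'
  have hx'0 : x' ≠ 0 := fun h => hx0 (congrArg Subtype.val h)
  have hres : ∀ w ∈ S, 0 < (w.restrict k⟮x⟯).ord x' := by
    intro w hw
    have h1 := w.ord_restrict (F := k⟮x⟯) x'
    have h2 := hS w hw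
    change w.ord x = _ at h1
    rw [h1] at h2
    by_contra hle
    push Not at hle
    have h3 : (w.ramificationIndex k⟮x⟯ : ℤ) * (w.restrict k⟮x⟯).ord x' ≤ 0 :=
      mul_nonpos_of_nonneg_of_nonpos (by positivity) hle
    omega
  have heq : ∀ w ∈ S, w.restrict k⟮x⟯ = w₀.restrict k⟮x⟯ := fun w hw =>
    eq_of_gen hx'0 (adjoin_gen x) _ _ (hres w hw) (hres w₀ hw₀)
  have hram : ∀ w ∈ S, w.ord x = w.ramificationIndex k⟮x⟯ := by
    intro w hw
    have h1 := w.ord_restrict (F := k⟮x⟯) x'
    rw [ord_eq_one_of_gen hx'0 (adjoin_gen x) _ (hres w hw), mul_one] at h1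
    exact h1
  have := sum_ramificationIndex_le (F := k⟮x⟯) (w₀.restrict k⟮x⟯) S heq
  rw [Finset.sum_congr rfl hram]
  exact_mod_cast this

theorem finite_zeros_of_transcendental {x : F} (hx : Transcendental k x) :
    {w : Place k F | 0 < w.ord x}.Finite := by
  classical
  by_contra hinf
  obtain ⟨S, hS, hcard⟩ := (Set.not_finite.mp hinf : Set.Infinite _).exists_subset_card_eq
    (Module.finrank k⟮x⟯ F + 1)
  have h1 := sum_ord_le hx S (fun w hw => hS hw)
  have h2 : (S.card : ℤ) ≤ ∑ w ∈ S, w.ord x := by
    have : ∑ w ∈ S, (1 : ℤ) ≤ ∑ w ∈ S, w.ord x :=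
      Finset.sum_le_sum fun w hw => by have := hS hw; simp only [Set.mem_ofPred_eq] at this; omega
    simpa using this
  rw [hcard] at h2
  push_cast at h2
  omega

variable [IsAlgClosed k]

omit [IsFunctionField k F] in
theorem transcendental_or (x : F) : Transcendental k x ∨ ∃ c : k, x = algebraMap k F c := by
  by_cases h : IsAlgebraic k x
  · right
    have hint : IsIntegral k x := h.isIntegral
    haveI : Algebra.IsIntegral k k⟮x⟯ := by
      haveI := IntermediateField.adjoin.finiteDimensional hint
      exact Algebra.IsIntegral.of_finite k k⟮x⟯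
    obtain ⟨c, hc⟩ := (IsAlgClosed.algebraMap_bijective_of_isIntegral (k := k) (K := k⟮x⟯)).2
      ⟨x, IntermediateField.mem_adjoin_simple_self k x⟩
    exact ⟨c, (congrArg Subtype.val hc).symm⟩
  · exact Or.inl h

theorem finite_zeros (x : F) : {w : Place k F | 0 < w.ord x}.Finite := by
  rcases transcendental_or (k := k) x with h | ⟨c, rfl⟩
  · exact finite_zeros_of_transcendental h
  · convert Set.finite_empty
    ext w
    simp [ord_algebraMap]

theorem finite_support (x : F) : (Function.support fun w : Place k F => w.ord x).Finite := by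
  refine ((finite_zeros x).union (finite_zeros (k := k) x⁻¹)).subset fun w hw => ?_
  have : w.ord x ≠ 0 := hw
  simp only [Set.mem_union, Set.mem_ofPred_eq, w.ord_inv]
  omega

/-- The divisor of a function. -/
def divisorOf (x : F) : Divisor k F := Finsupp.ofSupportFinite _ (finite_support x)

@[simp]
theorem divisorOf_apply (x : F) (w : Place k F) : divisorOf x w = w.ord x := rfl

/-- The degree is the sum of the coefficients. -/
theorem degree_eq_sum (D : Divisor k F) : Divisor.degree D = D.sum fun _ n => n := by
  rw [Divisor.degree, Finsupp.liftAddHom_apply]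
  refine Finsupp.sum_congr fun w _ => ?_
  simp [deg_eq_one]

/-! ### Dimension of Riemann-Roch spaces -/

/-- The space of functions with `ord_v ≥ -m`. -/
def poleSpace (v : Place k F) (m : ℤ) : Submodule k F where
  carrier := {f | v.adicValuation f ≤ exp m}
  zero_mem' := by simp
  add_mem' := by
    intro f g hf hg
    show v.adicValuation (f + g) ≤ exp m
    exact (Valuation.map_add _ _ _).trans (max_le hf hg)
  smul_mem' := by
    intro c f hf
    show v.adicValuation (c • f) ≤ exp m
    rw [Algebra.smul_def, map_mul]
    exact (mul_le_of_le_one_left' (v.adicValuation_algebraMap_le_one c)).trans hf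

omit [IsFunctionField k F] [IsAlgClosed k] in
/-- The leading coefficient map. -/
theorem exists_leading (v : Place k F) (m : ℤ) :
    ∃ l : poleSpace v m →ₗ[k] v.ResidueField,
      ∀ f, l f = 0 ↔ v.adicValuation (f : F) ≤ exp (m - 1) := by
  obtain ⟨π, hπ0, hπ⟩ := exists_ord_eq v m
  have hvπ : v.adicValuation π = exp (-m) := by rw [v.adicValuation_eq_exp_neg_ord hπ0, hπ]
  have hmem : ∀ f : poleSpace v m, (f : F) * π ∈ v.toValuationSubring := by
    intro f
    rw [mem_iff_val, map_mul, hvπ]
    calc v.adicValuation (f : F) * exp (-m) ≤ exp m * exp (-m) := mul_le_mul_left f.2 _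
      _ = 1 := by rw [← exp_add]; simp
  let g : poleSpace v m →ₗ[k] v.ResidueField :=
    { toFun := fun f => IsLocalRing.residue _ ⟨(f : F) * π, hmem f⟩
      map_add' := fun f g => by
        rw [← map_add]
        congr 1
        exact Subtype.ext (add_mul _ _ _)
      map_smul' := fun c f => by
        rw [RingHom.id_apply, Algebra.smul_def]
        have : (algebraMap k v.ResidueField) c
          = IsLocalRing.residue _ (algebraMap k v.toValuationSubring c) := rfl
        rw [this, ← map_mul]
        congr 1
        apply Subtype.ext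
        change (c • (f : F)) * π = algebraMap k F c * ((f : F) * π)
        rw [Algebra.smul_def, mul_assoc] }
  refine ⟨g, fun f => ?_⟩
  change IsLocalRing.residue _ _ = 0 ↔ _
  rw [IsLocalRing.residue_eq_zero_iff, IsLocalRing.mem_maximalIdeal, mem_nonunits_iff,
    ← v.adicValuation_coe_eq_one_iff]
  change ¬ v.adicValuation ((f : F) * π) = 1 ↔ _
  rcases eq_or_ne (f : F) 0 with h0 | h0
  · simp [h0]
  · rw [val_eq_one_iff v (mul_ne_zero h0 hπ0), v.ord_mul h0 hπ0, hπ]
    have h1 : v.adicValuation (f : F) ≤ exp m := f.2
    rw [v.adicValuation_eq_exp_neg_ord h0, exp_le_exp] at h1 ⊢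
    omega

theorem rank_riemannRochSpace_add_single_le (D : Divisor k F) (v : Place k F) :
    Module.rank k (riemannRochSpace (D + Finsupp.single v 1))
      ≤ Module.rank k (riemannRochSpace D) + 1 := by
  classical
  obtain ⟨l, hl⟩ := exists_leading v (D v + 1)
  have hle : riemannRochSpace (D + Finsupp.single v 1) ≤ poleSpace v (D v + 1) := by
    intro f hf
    have := hf v
    rwa [Finsupp.add_apply, Finsupp.single_eq_same] at this
  let l' : riemannRochSpace (D + Finsupp.single v 1) →ₗ[k] v.ResidueField :=
    l.comp (Submodule.inclusion hle)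
  have hker : Module.rank k (LinearMap.ker l') ≤ Module.rank k (riemannRochSpace D) := by
    let i : LinearMap.ker l' →ₗ[k] riemannRochSpace D :=
      ((Submodule.subtype _).comp (LinearMap.ker l').subtype).codRestrict _ (by
        rintro ⟨⟨f, hf⟩, hf'⟩ w
        change w.adicValuation f ≤ _
        by_cases hw : w = v
        · subst hw
          have h0 : l ⟨f, hle hf⟩ = 0 := hf'
          have := (hl ⟨f, hle hf⟩).mp h0
          simpa using this
        · have := hf w
          rwa [Finsupp.add_apply, Finsupp.single_eq_of_ne hw, add_zero] at this)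
    refine LinearMap.rank_le_of_injective i ?_
    rintro ⟨⟨f, hf⟩, hf'⟩ ⟨⟨g, hg⟩, hg'⟩ h
    have : f = g := congrArg Subtype.val h
    simp [this]
  have hrange : Module.rank k (LinearMap.range l') ≤ 1 := by
    have h1 := Submodule.rank_le (LinearMap.range l')
    have h2 : Module.rank k v.ResidueField = 1 := by
      rw [← Module.finrank_eq_rank]
      have : Module.finrank k v.ResidueField = 1 := deg_eq_one v
      rw [this, Nat.cast_one]
    rwa [h2] at h1
  rw [← LinearMap.rank_range_add_rank_ker l', add_comm]
  exact add_le_add hker hrange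

theorem riemannRochSpace_zero_le : riemannRochSpace (0 : Divisor k F) ≤
    Submodule.span k {1} := by
  intro f hf
  rcases transcendental_or (k := k) f with h | ⟨c, rfl⟩
  · exfalso
    have h' : Transcendental k f⁻¹ := fun h'' => h (by simpa using h''.inv)
    obtain ⟨w, hw⟩ := exists_ord_pos_of_transcendental h'
    have hf0 : f ≠ 0 := by
      rintro rfl
      exact h isAlgebraic_zero
    have := (mem_riemannRochSpace_iff.mp hf w).resolve_left hf0
    rw [w.ord_inv] at hw
    simp at this
    omega
  · rw [Algebra.algebraMap_eq_smul_one]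
    exact Submodule.smul_mem _ _ (Submodule.mem_span_singleton_self _)

theorem rank_riemannRochSpace_le (D : Divisor k F) (hD : 0 ≤ D) :
    Module.rank k (riemannRochSpace D) ≤ (((Divisor.degree D).toNat + 1 : ℕ) : Cardinal) := by
  classical
  have main : ∀ (n : ℕ) (D : Divisor k F), 0 ≤ D → (Divisor.degree D).toNat = n →
      Module.rank k (riemannRochSpace D) ≤ ((n + 1 : ℕ) : Cardinal) := by
    intro n
    induction n with
    | zero =>
      intro D hD hn
      have hD0 : D = 0 := by
        rw [degree_eq_sum] at hn
        ext v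
        by_contra hne
        have hv : v ∈ D.support := by simpa using hne
        have h1 : D v ≤ D.sum fun _ n => n := by
          rw [Finsupp.sum]
          exact Finset.single_le_sum (fun w _ => hD w) hv
        have h2 : 0 ≤ D v := hD v
        have h3 : D v ≠ 0 := hne
        omega
      subst hD0
      refine (Submodule.rank_mono riemannRochSpace_zero_le).trans ?_
      refine (rank_span_le _).trans ?_
      simp
    | succ n ih =>
      intro D hD hn
      have hne : D ≠ 0 := by
        rintro rfl
        simp at hn
      obtain ⟨v, hv⟩ := Finsupp.ne_iff.mp hne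
      have hv1 : 1 ≤ D v := by
        have h2 : 0 ≤ D v := hD v
        have h3 : D v ≠ 0 := hv
        omega
      have hsub : D = (D - Finsupp.single v 1) + Finsupp.single v 1 := by simp
      have hdeg : Divisor.degree (D - Finsupp.single v 1) = Divisor.degree D - 1 := by
        rw [map_sub, Divisor.degree_single, deg_eq_one]
        simp
      have hnn : 0 ≤ D - Finsupp.single v 1 := by
        intro w
        by_cases hw : w = v
        · subst hw
          simp only [Finsupp.coe_zero, Pi.zero_apply, Finsupp.coe_sub, Pi.sub_apply,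
            Finsupp.single_eq_same]
          omega
        · simp only [Finsupp.coe_zero, Pi.zero_apply, Finsupp.coe_sub, Pi.sub_apply,
            Finsupp.single_eq_of_ne hw, sub_zero]
          exact hD w
      have h1 := ih (D - Finsupp.single v 1) hnn (by rw [hdeg]; omega)
      rw [hsub]
      refine (rank_riemannRochSpace_add_single_le _ v).trans ?_
      calc _ ≤ ((n + 1 : ℕ) : Cardinal) + 1 := by gcongr
        _ = ((n + 1 + 1 : ℕ) : Cardinal) := by push_cast; rfl
  exact main _ D hD rfl

theorem pos_of_nonneg_degree (D : Divisor k F) (hD : 0 ≤ D) : 0 ≤ Divisor.degree D := by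
  rw [degree_eq_sum]
  exact Finset.sum_nonneg fun w _ => hD w

/-- The divisor of poles of `x` -/
def poleDivisor (x : F) : Divisor k F :=
  Finsupp.ofSupportFinite (fun w => max 0 (-w.ord x)) ((finite_support (k := k) x).subset
    fun w hw => by
      simp only [Function.mem_support] at hw ⊢
      omega)

@[simp]
theorem poleDivisor_apply (x : F) (w : Place k F) : poleDivisor x w = max 0 (-w.ord x) := rfl

theorem poleDivisor_nonneg (x : F) : 0 ≤ poleDivisor (k := k) x := fun w => by simp

theorem finrank_le_degree_poleDivisor {x : F} (hx : Transcendental k x) :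
    (Module.finrank k⟮x⟯ F : ℤ) ≤ Divisor.degree (poleDivisor (k := k) x) := by
  classical
  haveI := finiteDimensional_adjoin_simple hx
  set n := Module.finrank k⟮x⟯ F with hn
  set B := poleDivisor (k := k) x with hB
  let u := Module.finBasis k⟮x⟯ F
  set C : Divisor k F := ∑ i, poleDivisor (k := k) (u i) with hC
  have hC0 : 0 ≤ C := Finset.sum_nonneg fun i _ => poleDivisor_nonneg _
  have hB0 : 0 ≤ B := poleDivisor_nonneg _
  by_contra hlt
  push Not at hlt
  have hBdeg := pos_of_nonneg_degree B hB0
  have hCdeg := pos_of_nonneg_degree C hC0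
  -- many independent elements
  have hx0 : x ≠ 0 := by
    rintro rfl
    exact hx (isAlgebraic_zero)
  have key : ∀ l : ℕ, ((l + 1) * n : ℤ) ≤ l * Divisor.degree B + Divisor.degree C + 1 := by
    intro l
    set D : Divisor k F := l • B + C with hD
    have hD0 : 0 ≤ D := add_nonneg (nsmul_nonneg hB0 l) hC0
    have hmem : ∀ p : Fin (l + 1) × Fin n, x ^ (p.1 : ℕ) * u p.2 ∈ riemannRochSpace D := by
      rintro ⟨j, i⟩
      rw [mem_riemannRochSpace_iff]
      intro v
      right
      have hu0 : u i ≠ 0 := u.ne_zero i
      rw [v.ord_mul (pow_ne_zero _ hx0) hu0, ord_pow]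
      have h1 : -(v.ord (u i)) ≤ C v := by
        rw [hC, Finsupp.finsetSum_apply]
        refine le_trans ?_ (Finset.single_le_sum (f := fun i => poleDivisor (k := k) (u i) v)
          (fun i _ => poleDivisor_nonneg _ v) (Finset.mem_univ i))
        simp
      have h2 : -((j : ℕ) * v.ord x : ℤ) ≤ l * B v := by
        have h3 : ((j : ℕ) : ℤ) ≤ l := by
          have := j.2
          omega
        have h4 : -v.ord x ≤ B v := by simp [hB]
        have h5 : 0 ≤ B v := hB0 v
        calc -((j : ℕ) * v.ord x : ℤ) = (j : ℕ) * (-v.ord x) := by ring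
          _ ≤ (j : ℕ) * B v := mul_le_mul_of_nonneg_left h4 (by positivity)
          _ ≤ l * B v := mul_le_mul_of_nonneg_right h3 h5
      rw [hD, Finsupp.add_apply, Finsupp.smul_apply, nsmul_eq_mul]
      simp only
      omega
    have hind1 : LinearIndependent k fun j : Fin (l + 1) =>
        (⟨x, IntermediateField.mem_adjoin_simple_self k x⟩ : k⟮x⟯) ^ (j : ℕ) := by
      have h1 : LinearIndependent k fun j : ℕ => x ^ j := by
        have h0 : LinearIndependent k fun j : ℕ => (Polynomial.X : Polynomial k) ^ j := by
          have := (Polynomial.basisMonomials k).linearIndependent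
          simpa [Polynomial.X_pow_eq_monomial] using this
        have h2 := h0.map' (Polynomial.aeval x).toLinearMap
          (LinearMap.ker_eq_bot.mpr (transcendental_iff_injective.mp hx))
        simpa [Function.comp_def] using h2
      have h2 : LinearIndependent k fun j : Fin (l + 1) => x ^ (j : ℕ) :=
        h1.comp _ Fin.val_injective
      refine LinearIndependent.of_comp (k⟮x⟯.val.toLinearMap) ?_
      exact h2
    have hind := linearIndependent_smul hind1 u.linearIndependent
    have hind' : LinearIndependent k fun p : Fin (l + 1) × Fin n =>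
        (⟨x ^ (p.1 : ℕ) * u p.2, hmem p⟩ : riemannRochSpace D) := by
      refine LinearIndependent.of_comp (riemannRochSpace D).subtype ?_
      exact hind
    have h1 := hind'.cardinal_lift_le_rank
    have h2 := h1.trans (Cardinal.lift_le.mpr (rank_riemannRochSpace_le D hD0))
    rw [Cardinal.mk_fintype, Fintype.card_prod, Fintype.card_fin, Fintype.card_fin,
      Cardinal.lift_natCast, Cardinal.lift_natCast] at h2
    have h3 : (l + 1) * n ≤ (Divisor.degree D).toNat + 1 := by exact_mod_cast h2
    have h4 : Divisor.degree D = l * Divisor.degree B + Divisor.degree C := by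
      rw [hD, map_add, map_nsmul, nsmul_eq_mul]
    have h5 := pos_of_nonneg_degree D hD0
    have h6 : ((l + 1) * n : ℤ) ≤ (Divisor.degree D).toNat + 1 := by exact_mod_cast h3
    rw [Int.toNat_of_nonneg h5, h4] at h6
    exact h6
  have h7 := key ((Divisor.degree C).toNat + 1)
  push_cast at h7
  rw [Int.toNat_of_nonneg hCdeg] at h7
  nlinarith

omit [IsFunctionField k F] [IsAlgClosed k] in
theorem adjoin_inv_eq (x : F) : k⟮x⁻¹⟯ = k⟮x⟯ := by
  apply le_antisymm
  · rw [IntermediateField.adjoin_simple_le_iff]
    exact inv_mem (IntermediateField.mem_adjoin_simple_self k x)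
  · rw [IntermediateField.adjoin_simple_le_iff]
    have := inv_mem (IntermediateField.mem_adjoin_simple_self k x⁻¹)
    rwa [inv_inv] at this

omit [IsFunctionField k F] [IsAlgClosed k] in
theorem finrank_adjoin_inv (x : F) : Module.finrank k⟮x⁻¹⟯ F = Module.finrank k⟮x⟯ F := by
  rw [adjoin_inv_eq]

theorem degree_poleDivisor {x : F} (hx : Transcendental k x) :
    Divisor.degree (poleDivisor (k := k) x) = Module.finrank k⟮x⟯ F := by
  classical
  refine le_antisymm ?_ (finrank_le_degree_poleDivisor hx)
  have hx' : Transcendental k x⁻¹ := fun h'' => hx (by simpa using h''.inv)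
  rw [← finrank_adjoin_inv, degree_eq_sum, Finsupp.sum]
  have hS : ∀ w ∈ (poleDivisor (k := k) x).support, 0 < w.ord x⁻¹ := by
    intro w hw
    rw [Finsupp.mem_support_iff, poleDivisor_apply] at hw
    rw [w.ord_inv]
    omega
  refine le_trans (le_of_eq (Finset.sum_congr rfl fun w hw => ?_)) (sum_ord_le hx' _ hS)
  have := hS w hw
  rw [poleDivisor_apply]
  rw [w.ord_inv] at this ⊢
  omega

theorem divisorOf_eq (x : F) :
    divisorOf (k := k) x = poleDivisor x⁻¹ - poleDivisor x := by
  ext w
  simp only [divisorOf_apply, Finsupp.coe_sub, Pi.sub_apply, poleDivisor_apply, w.ord_inv]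
  omega

@[simp]
theorem degree_divisorOf (x : F) : Divisor.degree (divisorOf (k := k) x) = 0 := by
  rcases transcendental_or (k := k) x with h | ⟨c, rfl⟩
  · have hx' : Transcendental k x⁻¹ := fun h'' => h (by simpa using h''.inv)
    rw [divisorOf_eq, map_sub, degree_poleDivisor h, degree_poleDivisor hx', finrank_adjoin_inv,
      sub_self]
  · have : divisorOf (k := k) (algebraMap k F c) = 0 := by
      ext w
      simp [ord_algebraMap]
    rw [this, map_zero]

instance hasPrincipalDivisors : HasPrincipalDivisors k F where
  exists_divisor f _ := ⟨divisorOf f, fun _ => rfl, degree_divisorOf f⟩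

end

end Fermat.Agent.Curves
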