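import Fermat.Agent.Curves.Indep

/-!
# Constructing places
-/

set_option autoImplicit false
set_option linter.style.haveILetI false

noncomputable section

namespace Fermat.Agent.Curves

open AlgebraicCurve IntermediateField WithZero

/-- A valuation subring described by an integer valued order function is a PID. -/
theorem isPID_of_ord {L : Type*} [Field L] (O : ValuationSubring L) (ρ : L → ℤ)
    (hmul : ∀ x y, x ≠ 0 → y ≠ 0 → ρ (x * y) = ρ x + ρ y)
    (hmem : ∀ x, x ≠ 0 → (x ∈ O ↔ 0 ≤ ρ x)) (htop : O ≠ ⊤) : IsPrincipalIdealRing O := by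
  classical
  have hone : ρ 1 = 0 := by
    have := hmul 1 1 one_ne_zero one_ne_zero
    rw [mul_one] at this
    omega
  have hinv : ∀ x, x ≠ 0 → ρ x⁻¹ = -ρ x := by
    intro x hx
    have := hmul x x⁻¹ hx (inv_ne_zero hx)
    rw [mul_inv_cancel₀ hx, hone] at this
    omega
  have hpow : ∀ x, x ≠ 0 → ∀ n : ℕ, ρ (x ^ n) = n * ρ x := by
    intro x hx n
    induction n with
    | zero => simp [hone]
    | succ n ih =>
      rw [pow_succ, hmul _ _ (pow_ne_zero _ hx) hx, ih]
      push_cast
      ring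
  have hunit : ∀ (x : L) (hx0 : x ≠ 0) (hx : x ∈ O), IsUnit (⟨x, hx⟩ : O) ↔ ρ x = 0 := by
    intro x hx0 hx
    constructor
    · intro h
      obtain ⟨b, hb⟩ := isUnit_iff_exists_inv.mp h
      have hb' : x * (b : L) = 1 := congrArg Subtype.val hb
      have hb0 : (b : L) ≠ 0 := fun h0 => by
        rw [h0, mul_zero] at hb'
        exact zero_ne_one hb'
      have h1 := (hmem _ hb0).mp b.2
      have h2 := (hmem _ hx0).mp hx
      have h3 := hmul x b hx0 hb0
      rw [hb', hone] at h3
      omega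
    · intro h
      have h1 : x⁻¹ ∈ O := (hmem _ (inv_ne_zero hx0)).mpr (by rw [hinv x hx0]; omega)
      exact isUnit_iff_exists_inv.mpr ⟨⟨x⁻¹, h1⟩, Subtype.ext (mul_inv_cancel₀ hx0)⟩
  have hex : ∃ n : ℕ, 0 < n ∧ ∃ x, x ≠ 0 ∧ ρ x = n := by
    obtain ⟨x, hx⟩ : ∃ x, x ∉ O := by
      by_contra! h
      exact htop (SetLike.ext fun x => ⟨fun _ => ValuationSubring.mem_top x, fun _ => h x⟩)
    have hx0 : x ≠ 0 := fun h0 => hx (h0 ▸ zero_mem _)
    rw [hmem x hx0] at hx
    refine ⟨(ρ x⁻¹).toNat, ?_, x⁻¹, inv_ne_zero hx0, ?_⟩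
    · rw [hinv x hx0]; omega
    · rw [hinv x hx0]; omega
  obtain ⟨hpos, π, hπ0, hπ⟩ := Nat.find_spec hex
  set a := Nat.find hex with ha
  have hmin : ∀ x, x ≠ 0 → 0 < ρ x → (a : ℤ) ≤ ρ x := by
    intro x hx0 hx
    have := Nat.find_min' hex (m := (ρ x).toNat) ⟨by omega, x, hx0, by omega⟩
    omega
  have hπO : π ∈ O := (hmem π hπ0).mpr (by omega)
  refine (IsDiscreteValuationRing.ofHasUnitMulPowIrreducibleFactorization
    ⟨⟨π, hπO⟩, ⟨?_, ?_⟩, ?_⟩).toIsPrincipalIdealRing
  · rw [hunit π hπ0 hπO]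
    omega
  · rintro ⟨x, hx⟩ ⟨y, hy⟩ hxy
    have hxy' : π = x * y := congrArg Subtype.val hxy
    have hx0 : x ≠ 0 := by
      rintro rfl
      exact hπ0 (by simpa using hxy')
    have hy0 : y ≠ 0 := by
      rintro rfl
      exact hπ0 (by simpa using hxy')
    rw [hunit x hx0 hx, hunit y hy0 hy]
    have h1 := hmul x y hx0 hy0
    rw [← hxy', hπ] at h1
    have h2 := (hmem x hx0).mp hx
    have h3 := (hmem y hy0).mp hy
    by_contra! h
    have h4 := hmin x hx0 (by omega)
    have h5 := hmin y hy0 (by omega)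
    omega
  · rintro ⟨x, hx⟩ hxne
    have hx0 : x ≠ 0 := by simpa [Subtype.ext_iff] using hxne
    have hρ := (hmem x hx0).mp hx
    set n : ℕ := (ρ x / a).toNat with hn
    have hn' : (n : ℤ) = ρ x / a := Int.toNat_of_nonneg (Int.ediv_nonneg hρ (by omega))
    have hπn : π ^ n ≠ 0 := pow_ne_zero _ hπ0
    have hu0 : x * (π ^ n)⁻¹ ≠ 0 := mul_ne_zero hx0 (inv_ne_zero hπn)
    have hρu : ρ (x * (π ^ n)⁻¹) = ρ x % a := by
      rw [hmul _ _ hx0 (inv_ne_zero hπn), hinv _ hπn, hpow _ hπ0, hn', hπ, Int.emod_def]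
      ring
    have h6 : ρ (x * (π ^ n)⁻¹) = 0 := by
      by_contra hne
      have h7 := Int.emod_nonneg (ρ x) (by omega : (a : ℤ) ≠ 0)
      have h8 := Int.emod_lt_of_pos (ρ x) (by omega : (0 : ℤ) < a)
      have := hmin _ hu0 (by omega)
      omega
    have huO : x * (π ^ n)⁻¹ ∈ O := (hmem _ hu0).mpr h6.ge
    refine ⟨n, ((hunit _ hu0 huO).mpr h6).unit, ?_⟩
    refine Subtype.ext ?_
    change π ^ n * (x * (π ^ n)⁻¹) = x
    field_simp

/-- A valuation ring of a finite extension is discrete if the restricted value group is cyclic. -/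
theorem isPID_of_finite {F F' : Type*} [Field F] [Field F'] [Algebra F F'] [FiniteDimensional F F']
    (O : ValuationSubring F') (t : F') (ht0 : t ≠ 0) (ht : O.valuation t < 1)
    (h : ∀ g : F, g ≠ 0 → ∃ j : ℤ, O.valuation (algebraMap F F' g) = O.valuation t ^ j) :
    IsPrincipalIdealRing O := by
  classical
  set V := O.valuation with hV
  have hVt0 : V t ≠ 0 := (V.ne_zero_iff).mpr ht0
  set d := Module.finrank F F' with hd
  -- the value of some power is a value of `F`
  have step : ∀ f : F', f ≠ 0 → ∃ m : ℕ, 1 ≤ m ∧ m ≤ d ∧ ∃ j : ℤ, V f ^ m = V t ^ j := by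
    intro f hf
    have hVf : V f ≠ 0 := (V.ne_zero_iff).mpr hf
    have hint : IsIntegral F f := Algebra.IsIntegral.isIntegral f
    set P := minpoly F f with hP
    have hPne : P ≠ 0 := minpoly.ne_zero hint
    have hP0 : ∑ i ∈ P.support, algebraMap F F' (P.coeff i) * f ^ i = 0 := by
      have := minpoly.aeval F f
      rwa [Polynomial.aeval_def, Polynomial.eval₂_eq_sum, ← hP, Polynomial.sum_def] at this
    have hdeg : P.natDegree ≤ d := minpoly.natDegree_le f
    -- two terms with equal value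
    have hij : ∀ i ∈ P.support, ∀ j ∈ P.support, i < j →
        V (algebraMap F F' (P.coeff i) * f ^ i) = V (algebraMap F F' (P.coeff j) * f ^ j) →
        ∃ m : ℕ, 1 ≤ m ∧ m ≤ d ∧ ∃ j : ℤ, V f ^ m = V t ^ j := by
      intro i hi j hj hlt heq
      obtain ⟨a, ha⟩ := h (P.coeff i) (Polynomial.mem_support_iff.mp hi)
      obtain ⟨b, hb⟩ := h (P.coeff j) (Polynomial.mem_support_iff.mp hj)
      refine ⟨j - i, by omega, ?_, a - b, ?_⟩
      · have := Polynomial.le_natDegree_of_mem_supp j hj
        omega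
      · rw [map_mul, map_mul, map_pow, map_pow, ha, hb] at heq
        have h1 : V f ^ j = V f ^ i * V f ^ (j - i) := by
          rw [← pow_add]
          congr 1
          omega
        rw [h1] at heq
        have h2 : V f ^ i ≠ 0 := pow_ne_zero _ hVf
        rw [zpow_sub₀ hVt0, eq_div_iff (zpow_ne_zero _ hVt0)]
        have h3 : V f ^ i * (V f ^ (j - i) * V t ^ b) = V f ^ i * V t ^ a := by
          rw [mul_comm (V f ^ i) (V t ^ a), heq]
          ac_rfl
        exact mul_left_cancel₀ h2 h3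
    obtain ⟨i₀, hi₀, hmax⟩ := P.support.exists_max_image
      (fun i => V (algebraMap F F' (P.coeff i) * f ^ i)) (Polynomial.support_nonempty.mpr hPne)
    by_contra hcon
    have hlt : ∀ j ∈ P.support.erase i₀, V (algebraMap F F' (P.coeff j) * f ^ j)
        < V (algebraMap F F' (P.coeff i₀) * f ^ i₀) := by
      intro j hj
      have hjs := Finset.mem_of_mem_erase hj
      refine lt_of_le_of_ne (hmax j hjs) fun heq => hcon ?_
      rcases lt_or_gt_of_ne (Finset.ne_of_mem_erase hj) with hl | hl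
      · exact hij j hjs i₀ hi₀ hl heq
      · exact hij i₀ hi₀ j hjs hl heq.symm
    have hterm0 : V (algebraMap F F' (P.coeff i₀) * f ^ i₀) ≠ 0 := by
      rw [V.ne_zero_iff]
      exact mul_ne_zero (by simpa using Polynomial.mem_support_iff.mp hi₀) (pow_ne_zero _ hf)
    have hsum := Valuation.map_sum_lt V hterm0 hlt
    have h2 : V (∑ i ∈ P.support, algebraMap F F' (P.coeff i) * f ^ i)
        = V (algebraMap F F' (P.coeff i₀) * f ^ i₀) := by
      rw [← Finset.add_sum_erase _ _ hi₀]
      exact Valuation.map_add_eq_of_lt_left _ hsum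
    rw [hP0, map_zero] at h2
    exact hterm0 h2.symm
  have hn : d.factorial ≠ 0 := Nat.factorial_ne_zero d
  have step2 : ∀ f : F', f ≠ 0 → ∃ j : ℤ, V f ^ d.factorial = V t ^ j := by
    intro f hf
    obtain ⟨m, hm1, hmd, j, hj⟩ := step f hf
    obtain ⟨c, hc⟩ := Nat.dvd_factorial hm1 hmd
    refine ⟨j * c, ?_⟩
    rw [hc, pow_mul, hj, zpow_mul, zpow_natCast]
  choose! ρ hρ using step2
  have hVt1 : 0 < V t := zero_lt_iff.mpr hVt0
  have hinj : ∀ i j : ℤ, V t ^ i = V t ^ j → i = j := fun i j hij =>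
    (zpow_right_strictAnti₀ hVt1 ht).injective hij
  have hle : ∀ j : ℤ, V t ^ j ≤ 1 ↔ 0 ≤ j := by
    intro j
    rw [← zpow_zero (V t)]
    exact (zpow_right_strictAnti₀ hVt1 ht).le_iff_ge
  refine isPID_of_ord O ρ ?_ ?_ ?_
  · intro x y hx hy
    apply hinj
    rw [← hρ _ (mul_ne_zero hx hy), zpow_add₀ hVt0, ← hρ x hx, ← hρ y hy, map_mul, mul_pow]
  · intro x hx
    rw [← O.valuation_le_one_iff, ← hle, ← hρ x hx, pow_le_one_iff hn]
  · intro htop
    have h1 : t⁻¹ ∈ O := htop ▸ ValuationSubring.mem_top _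
    rw [← O.valuation_le_one_iff, map_inv₀, inv_le_one₀ hVt1] at h1
    exact absurd h1 (not_le.mpr ht)

/-- Construct a place from an order function. -/
theorem exists_place_of_ord {k F : Type*} [Field k] [Field F] [Algebra k F] (ρ : F → ℤ)
    (hmul : ∀ x y, x ≠ 0 → y ≠ 0 → ρ (x * y) = ρ x + ρ y)
    (hadd : ∀ x y, x ≠ 0 → y ≠ 0 → x + y ≠ 0 → min (ρ x) (ρ y) ≤ ρ (x + y))
    (hk : ∀ a : k, a ≠ 0 → 0 ≤ ρ (algebraMap k F a))
    (h1 : ∃ t : F, t ≠ 0 ∧ ρ t = 1) :
    ∃ v : Place k F, ∀ f, f ≠ 0 → v.ord f = ρ f := by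
  classical
  have hone : ρ 1 = 0 := by
    have := hmul 1 1 one_ne_zero one_ne_zero
    rw [mul_one] at this
    omega
  have hinv : ∀ x, x ≠ 0 → ρ x⁻¹ = -ρ x := by
    intro x hx
    have := hmul x x⁻¹ hx (inv_ne_zero hx)
    rw [mul_inv_cancel₀ hx, hone] at this
    omega
  have hnegone : ρ (-1) = 0 := by
    have := hmul (-1) (-1) (neg_ne_zero.mpr one_ne_zero) (neg_ne_zero.mpr one_ne_zero)
    rw [neg_mul_neg, mul_one, hone] at this
    omega
  let O : ValuationSubring F :=
    { carrier := {x | x = 0 ∨ 0 ≤ ρ x}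
      mul_mem' := by
        rintro x y hx hy
        rcases eq_or_ne x 0 with rfl | hx0
        · left; simp
        rcases eq_or_ne y 0 with rfl | hy0
        · left; simp
        right
        rw [hmul x y hx0 hy0]
        have h2 := hx.resolve_left hx0
        have h3 := hy.resolve_left hy0
        omega
      one_mem' := Or.inr hone.ge
      add_mem' := by
        rintro x y hx hy
        rcases eq_or_ne x 0 with rfl | hx0
        · simpa using hy
        rcases eq_or_ne y 0 with rfl | hy0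
        · simpa using hx
        rcases eq_or_ne (x + y) 0 with h0 | h0
        · left; exact h0
        right
        have h2 := hx.resolve_left hx0
        have h3 := hy.resolve_left hy0
        have := hadd x y hx0 hy0 h0
        omega
      zero_mem' := Or.inl rfl
      neg_mem' := by
        rintro x hx
        rcases eq_or_ne x 0 with rfl | hx0
        · left; simp
        right
        rw [neg_eq_neg_one_mul, hmul _ _ (neg_ne_zero.mpr one_ne_zero) hx0, hnegone]
        have h2 := hx.resolve_left hx0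
        omega
      mem_or_inv_mem' := by
        intro x
        rcases eq_or_ne x 0 with rfl | hx0
        · left; left; rfl
        rcases le_total 0 (ρ x) with h | h
        · left; right; exact h
        · right; right
          rw [hinv x hx0]
          omega }
  have hO : ∀ x, x ≠ 0 → (x ∈ O ↔ 0 ≤ ρ x) := by
    intro x hx
    change (x = 0 ∨ 0 ≤ ρ x) ↔ _
    rw [or_iff_right hx]
  obtain ⟨t, ht0, ht⟩ := h1
  have htop : O ≠ ⊤ := by
    intro htop
    have h2 : t⁻¹ ∈ O := htop ▸ ValuationSubring.mem_top _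
    rw [hO _ (inv_ne_zero ht0), hinv t ht0] at h2
    omega
  let v : Place k F :=
    { toValuationSubring := O
      algebraMap_mem' := by
        intro a
        rcases eq_or_ne a 0 with rfl | ha
        · rw [map_zero]; exact zero_mem _
        · rw [hO _ (by simpa using ha)]
          exact hk a ha
      ne_top' := htop
      isPrincipalIdealRing' := isPID_of_ord O ρ hmul hO htop }
  have hnn : ∀ x, x ≠ 0 → (0 ≤ v.ord x ↔ 0 ≤ ρ x) := by
    intro x hx
    rw [← mem_iff_ord v hx]
    exact hO x hx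
  have hz : ∀ x, x ≠ 0 → ρ x = 0 → v.ord x = 0 := by
    intro x hx h0
    have h2 := (hnn x hx).mpr (by omega)
    have h3 := (hnn x⁻¹ (inv_ne_zero hx)).mpr (by rw [hinv x hx]; omega)
    rw [v.ord_inv] at h3
    omega
  have hzpow : ∀ x, x ≠ 0 → ∀ n : ℤ, ρ (x ^ n) = n * ρ x := by
    intro x hx n
    have hnat : ∀ m : ℕ, ρ (x ^ m) = m * ρ x := by
      intro m
      induction m with
      | zero => simp [hone]
      | succ m ih =>
        rw [pow_succ, hmul _ _ (pow_ne_zero _ hx) hx, ih]
        push_cast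
        ring
    obtain ⟨m, rfl | rfl⟩ := n.eq_nat_or_neg
    · rw [zpow_natCast, hnat]
    · rw [zpow_neg, zpow_natCast, hinv _ (pow_ne_zero _ hx), hnat]
      ring
  have hord : ∀ x, x ≠ 0 → v.ord x = ρ x * v.ord t := by
    intro x hx
    have h2 : ρ (x * (t ^ (ρ x))⁻¹) = 0 := by
      rw [hmul _ _ hx (inv_ne_zero (zpow_ne_zero _ ht0)), hinv _ (zpow_ne_zero _ ht0),
        hzpow t ht0, ht]
      ring
    have h3 := hz _ (mul_ne_zero hx (inv_ne_zero (zpow_ne_zero _ ht0))) h2
    rw [v.ord_mul hx (inv_ne_zero (zpow_ne_zero _ ht0)), v.ord_inv, v.ord_zpow] at h3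
    omega
  have ht1 : v.ord t = 1 := by
    obtain ⟨f, hf0, hf⟩ := exists_ord_eq v 1
    have h4 := hord f hf0
    rw [hf] at h4
    have h5 : 0 ≤ v.ord t := (hnn t ht0).mpr (by omega)
    have := Int.eq_one_or_neg_one_of_mul_eq_one' h4.symm
    omega
  exact ⟨v, fun f hf => by rw [hord f hf, ht1, mul_one]⟩

section Lying

variable {k F F' : Type*} [Field k] [Field F] [Field F'] [Algebra k F]
    [Algebra k F'] [Algebra F F'] [IsScalarTower k F F'] [FiniteDimensional F F']

/-- A valuation subring of `F'` lying over the valuation subring of a place of `F`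
comes from a place. -/
theorem exists_place_of_comap (v : Place k F) (O : ValuationSubring F')
    (hO : O.comap (algebraMap F F') = v.toValuationSubring) :
    ∃ w : Place k F', w.toValuationSubring = O ∧ w.restrict F = v := by
  have hmem : ∀ x : F, algebraMap F F' x ∈ O ↔ x ∈ v.toValuationSubring := by
    intro x
    rw [← hO, ValuationSubring.mem_comap]
  obtain ⟨π, hπ0, hπ⟩ := exists_ord_eq v 1
  have hval1 : ∀ x : F, x ≠ 0 → (O.valuation (algebraMap F F' x) ≤ 1 ↔ 0 ≤ v.ord x) := by
    intro x hx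
    rw [O.valuation_le_one_iff, hmem, mem_iff_ord v hx]
  have hπ0' : algebraMap F F' π ≠ 0 := by simpa using hπ0
  have hVπ0 : O.valuation (algebraMap F F' π) ≠ 0 := (O.valuation.ne_zero_iff).mpr hπ0'
  have hval2 : ∀ x : F, x ≠ 0 → v.ord x = 0 → O.valuation (algebraMap F F' x) = 1 := by
    intro x hx h0
    refine le_antisymm ((hval1 x hx).mpr h0.ge) ?_
    have h1 := (hval1 x⁻¹ (inv_ne_zero hx)).mpr (by rw [v.ord_inv]; omega)
    rw [map_inv₀, map_inv₀] at h1
    exact (inv_le_one₀ (zero_lt_iff.mpr ((O.valuation.ne_zero_iff).mpr (by simpa using hx)))).mp h1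
  have hpid : IsPrincipalIdealRing O := by
    refine isPID_of_finite (F := F) O (algebraMap F F' π) hπ0' ?_ ?_
    · rw [← not_le]
      intro h1
      have h2 : O.valuation (algebraMap F F' π⁻¹) ≤ 1 := by
        rw [map_inv₀, map_inv₀, inv_le_one₀ (zero_lt_iff.mpr hVπ0)]
        exact h1
      rw [hval1 _ (inv_ne_zero hπ0), v.ord_inv, hπ] at h2
      omega
    · intro g hg
      refine ⟨v.ord g, ?_⟩
      have h3 : v.ord (g * (π ^ v.ord g)⁻¹) = 0 := by
        rw [v.ord_mul hg (inv_ne_zero (zpow_ne_zero _ hπ0)), v.ord_inv, v.ord_zpow, hπ]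
        ring
      have h4 := hval2 _ (mul_ne_zero hg (inv_ne_zero (zpow_ne_zero _ hπ0))) h3
      rw [map_mul, map_inv₀, map_zpow₀, map_mul, map_inv₀, map_zpow₀] at h4
      rwa [mul_inv_eq_one₀ (zpow_ne_zero _ hVπ0)] at h4
  refine ⟨⟨O, fun a => ?_, ?_, hpid⟩, rfl, Place.ext hO⟩
  · rw [IsScalarTower.algebraMap_apply k F F', hmem]
    exact v.algebraMap_mem' a
  · rintro rfl
    apply v.ne_top'
    rw [← hO]
    ext x
    simp

variable (F') in
/-- Lying over for places. -/
theorem exists_restrict_eq (v : Place k F) : ∃ w : Place k F', w.restrict F = v := by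
  obtain ⟨A, h, hloc⟩ := IsLocalRing.exists_factor_valuationRing
    ((algebraMap F F').comp v.toValuationSubring.subtype)
  obtain ⟨w, -, hw⟩ := exists_place_of_comap v A (by
    ext x
    rw [ValuationSubring.mem_comap]
    refine ⟨fun hx => ?_, fun hx => h ⟨x, hx⟩⟩
    by_contra hxv
    have hx0 : x ≠ 0 := fun h0 => hxv (h0 ▸ zero_mem _)
    have hxi : x⁻¹ ∈ v.toValuationSubring := (v.toValuationSubring.mem_or_inv_mem x).resolve_left hxv
    have hunit : IsUnit ((((algebraMap F F').comp v.toValuationSubring.subtype).codRestrict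
        A.toSubring h) ⟨x⁻¹, hxi⟩) := by
      refine isUnit_iff_exists_inv.mpr ⟨⟨algebraMap F F' x, hx⟩, Subtype.ext ?_⟩
      change algebraMap F F' x⁻¹ * algebraMap F F' x = 1
      rw [← map_mul, inv_mul_cancel₀ hx0, map_one]
    have := hloc.map_nonunit _ hunit
    obtain ⟨b, hb⟩ := isUnit_iff_exists_inv.mp this
    have hb' : x⁻¹ * (b : F) = 1 := congrArg Subtype.val hb
    have : (b : F) = x := by
      field_simp at hb'
      exact hb'
    exact hxv (this ▸ b.2))
  exact ⟨w, hw⟩

/-- An element which is regular at all places above `v` is integral over `O_v`. -/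
theorem isIntegral_of_forall (v : Place k F) {f : F'}
    (hf : ∀ w : Place k F', w.restrict F = v → f ∈ w.toValuationSubring) :
    IsIntegral v.toValuationSubring f := by
  set R₀ : Subring F' := v.toValuationSubring.toSubring.map (algebraMap F F') with hR₀
  have hclosure : Subring.closure (R₀ : Set F') = R₀ := Subring.closure_eq R₀
  have h1 : f ∈ (⨅ V : {V : ValuationSubring F' // (R₀ : Set F') ⊆ V.toSubring},
      V.1.toSubring) := by
    rw [Subring.mem_iInf]
    rintro ⟨V, hV⟩
    change f ∈ V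
    have hsub : v.toValuationSubring ≤ V.comap (algebraMap F F') := by
      intro x hx
      rw [ValuationSubring.mem_comap]
      exact hV ⟨x, hx, rfl⟩
    by_cases htop : V.comap (algebraMap F F') = v.toValuationSubring
    · obtain ⟨w, hw1, hw2⟩ := exists_place_of_comap v V htop
      rw [← hw1]
      exact hf w hw2
    · -- then `V` contains `F`, hence everything
      have hlt : ∃ x, x ∈ V.comap (algebraMap F F') ∧ x ∉ v.toValuationSubring := by
        by_contra! h
        exact htop (le_antisymm h hsub)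
      obtain ⟨x, hx, hxv⟩ := hlt
      have hx0 : x ≠ 0 := fun h0 => hxv (h0 ▸ zero_mem _)
      have hneg : v.ord x < 0 := by
        by_contra hge
        exact hxv ((mem_iff_ord v hx0).mpr (not_lt.mp hge))
      have hall : ∀ g : F, g ∈ V.comap (algebraMap F F') := by
        intro g
        rcases eq_or_ne g 0 with rfl | hg0
        · exact zero_mem _
        set m : ℕ := (v.ord g).natAbs with hm
        have h1 : g * (x ^ m)⁻¹ ∈ v.toValuationSubring := by
          rw [mem_iff_ord v (mul_ne_zero hg0 (inv_ne_zero (pow_ne_zero _ hx0))),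
            v.ord_mul hg0 (inv_ne_zero (pow_ne_zero _ hx0)), v.ord_inv, ord_pow]
          have : (m : ℤ) * v.ord x ≤ (m : ℤ) * (-1) :=
            mul_le_mul_of_nonneg_left (by omega) (by omega)
          omega
        have h2 : g = g * (x ^ m)⁻¹ * x ^ m := by
          field_simp
        rw [h2]
        exact mul_mem (hsub h1) (pow_mem hx m)
      letI : Algebra F V :=
        ((algebraMap F F').codRestrict V.toSubring (fun g => hall g)).toAlgebra
      haveI : IsScalarTower F V F' := IsScalarTower.of_algebraMap_eq fun f => rfl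
      have hint : IsIntegral V f := (Algebra.IsIntegral.isIntegral (R := F) f).tower_top
      obtain ⟨y, hy⟩ := IsIntegrallyClosed.isIntegral_iff.mp hint
      exact hy ▸ y.2
  rw [iInf_valuationSubring_superset, hclosure] at h1
  have h2 : IsIntegral R₀ f := h1
  let g : v.toValuationSubring →+* R₀ :=
    ((algebraMap F F').comp v.toValuationSubring.subtype).codRestrict R₀
      (fun x => ⟨x, x.2, rfl⟩)
  letI : Algebra v.toValuationSubring R₀ := g.toAlgebra
  haveI : IsScalarTower v.toValuationSubring R₀ F' :=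
    IsScalarTower.of_algebraMap_eq fun x => rfl
  have h3 : Algebra.IsIntegral v.toValuationSubring R₀ := by
    refine ⟨?_⟩
    rintro ⟨_, x, hx, rfl⟩
    exact isIntegral_algebraMap (R := v.toValuationSubring) (A := R₀) (x := ⟨x, hx⟩)
  exact isIntegral_trans f h2

end Lying

section Zero

variable {k F : Type*} [Field k] [Field F] [Algebra k F]

theorem val_aeval {Γ : Type*} [LinearOrderedCommGroupWithZero Γ] (V : Valuation F Γ)
    (hk : ∀ c : k, c ≠ 0 → V (algebraMap k F c) = 1) {x : F} (hx0 : x ≠ 0) (hx : V x < 1)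
    {p : Polynomial k} (hp : p ≠ 0) :
    V (Polynomial.aeval x p) = V x ^ p.natTrailingDegree := by
  classical
  have hVx0 : V x ≠ 0 := (V.ne_zero_iff).mpr hx0
  have hsum : Polynomial.aeval x p = ∑ i ∈ p.support, algebraMap k F (p.coeff i) * x ^ i := by
    rw [Polynomial.aeval_def, Polynomial.eval₂_eq_sum, Polynomial.sum_def]
  have hmem := Polynomial.natTrailingDegree_mem_support_of_nonzero hp
  have hterm : ∀ i ∈ p.support, V (algebraMap k F (p.coeff i) * x ^ i) = V x ^ i := by
    intro i hi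
    rw [map_mul, map_pow, hk _ (Polynomial.mem_support_iff.mp hi), one_mul]
  rw [hsum, ← Finset.add_sum_erase _ _ hmem, ← hterm _ hmem]
  apply Valuation.map_add_eq_of_lt_left
  refine Valuation.map_sum_lt _ ?_ fun i hi => ?_
  · rw [hterm _ hmem]
    exact pow_ne_zero _ hVx0
  · rw [hterm _ hmem, hterm _ (Finset.mem_of_mem_erase hi)]
    have h1 : p.natTrailingDegree ≤ i :=
      Polynomial.natTrailingDegree_le_of_mem_supp i (Finset.mem_of_mem_erase hi)
    have h2 : p.natTrailingDegree ≠ i := (Finset.ne_of_mem_erase hi).symm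
    exact pow_lt_pow_right_of_lt_one₀ (zero_lt_iff.mpr hVx0) hx (by omega)

/-- Every transcendental element has a zero. -/
theorem exists_ord_pos_of_transcendental [IsFunctionField k F] {x : F} (hx : Transcendental k x) :
    ∃ w : Place k F, 0 < w.ord x := by
  classical
  have hx0 : x ≠ 0 := by
    rintro rfl
    exact hx (isAlgebraic_zero)
  set A : Subring F := (Algebra.adjoin k {x}).toSubring with hA
  have hxA : x ∈ A := Algebra.subset_adjoin rfl
  set I : Ideal A := Ideal.span {⟨x, hxA⟩} with hI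
  have hItop : I ≠ ⊤ := by
    rw [Ideal.ne_top_iff_one]
    intro h1
    rw [hI, Ideal.mem_span_singleton'] at h1
    obtain ⟨⟨a, ha⟩, hax⟩ := h1
    have hax' : a * x = 1 := congrArg Subtype.val hax
    have ha' : a ∈ Algebra.adjoin k {x} := ha
    rw [Algebra.adjoin_singleton_eq_range_aeval] at ha'
    obtain ⟨p, rfl⟩ := ha'
    apply hx
    refine ⟨p * Polynomial.X - 1, ?_, ?_⟩
    · intro h0
      have := congrArg (Polynomial.eval 0) h0
      simp at this
    · rw [map_sub, map_mul, Polynomial.aeval_X, map_one, sub_eq_zero]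
      exact hax'
  obtain ⟨B, hAB, hIB⟩ := Ideal.image_subset_nonunits_valuationSubring I hItop
  have hxB : x ∈ B.nonunits := hIB ⟨⟨x, hxA⟩, Ideal.mem_span_singleton_self _, rfl⟩
  have hVx : B.valuation x < 1 := (B.mem_nonunits_iff).mp hxB
  have hkB : ∀ c : k, algebraMap k F c ∈ B := fun c => hAB (algebraMap_mem (Algebra.adjoin k {x}) c)
  have hk : ∀ c : k, c ≠ 0 → B.valuation (algebraMap k F c) = 1 := by
    intro c hc
    refine le_antisymm ((B.valuation_le_one_iff _).mpr (hkB c)) ?_
    have h1 := (B.valuation_le_one_iff _).mpr (hkB c⁻¹)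
    rw [map_inv₀, map_inv₀] at h1
    exact (inv_le_one₀ (zero_lt_iff.mpr
      ((B.valuation.ne_zero_iff).mpr (by simpa using hc)))).mp h1
  have hVx0 : B.valuation x ≠ 0 := (B.valuation.ne_zero_iff).mpr hx0
  haveI := finiteDimensional_adjoin_simple hx
  have hpid : IsPrincipalIdealRing B := by
    refine isPID_of_finite (F := k⟮x⟯) B x hx0 hVx ?_
    rintro ⟨g, hg⟩ hg0
    have hg0' : g ≠ 0 := fun h => hg0 (Subtype.ext h)
    change ∃ j : ℤ, B.valuation g = B.valuation x ^ j
    rw [IntermediateField.mem_adjoin_simple_iff] at hg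
    obtain ⟨r, s, rfl⟩ := hg
    have hr0 : r ≠ 0 := by
      rintro rfl
      simp at hg0'
    have hs0 : s ≠ 0 := by
      rintro rfl
      simp at hg0'
    refine ⟨(r.natTrailingDegree : ℤ) - s.natTrailingDegree, ?_⟩
    rw [map_div₀, val_aeval _ hk hx0 hVx hr0, val_aeval _ hk hx0 hVx hs0, zpow_sub₀ hVx0,
      zpow_natCast, zpow_natCast]
  have htop : B ≠ ⊤ := by
    rintro rfl
    have h1 : x⁻¹ ∈ (⊤ : ValuationSubring F) := ValuationSubring.mem_top _
    rw [← ValuationSubring.valuation_le_one_iff, map_inv₀, inv_le_one₀ (zero_lt_iff.mpr hVx0)] at h1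
    exact absurd h1 (not_le.mpr hVx)
  let w : Place k F := ⟨B, hkB, htop, hpid⟩
  refine ⟨w, ?_⟩
  by_contra hle
  have h1 : 0 ≤ w.ord x⁻¹ := by
    rw [w.ord_inv]
    omega
  rw [← mem_iff_ord w (inv_ne_zero hx0)] at h1
  have h2 : x⁻¹ ∈ B := h1
  rw [← ValuationSubring.valuation_le_one_iff, map_inv₀, inv_le_one₀ (zero_lt_iff.mpr hVx0)] at h2
  exact absurd h2 (not_le.mpr hVx)

/-- On a rational function field `k(x)`, orders at places with `x ↦ 0` are determined. -/
theorem exists_ord_eq_mul {x : F} (hx0 : x ≠ 0)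
    (hgen : ∀ y : F, ∃ r s : Polynomial k, y = Polynomial.aeval x r / Polynomial.aeval x s)
    {y : F} (hy : y ≠ 0) : ∃ j : ℤ, ∀ w : Place k F, 0 < w.ord x → w.ord y = j * w.ord x := by
  obtain ⟨r, s, rfl⟩ := hgen y
  have hr0 : r ≠ 0 := by
    rintro rfl
    simp at hy
  have hs0 : s ≠ 0 := by
    rintro rfl
    simp at hy
  refine ⟨(r.natTrailingDegree : ℤ) - s.natTrailingDegree, fun w hw => ?_⟩
  have hk : ∀ c : k, c ≠ 0 → w.adicValuation (algebraMap k F c) = 1 := fun c hc =>
    val_algebraMap w hc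
  have hVx : w.adicValuation x < 1 := (val_lt_one_iff w).mpr (Or.inr hw)
  have h1 : w.adicValuation (Polynomial.aeval x r / Polynomial.aeval x s)
      = exp (-(((r.natTrailingDegree : ℤ) - s.natTrailingDegree) * w.ord x)) := by
    rw [map_div₀, val_aeval _ hk hx0 hVx hr0, val_aeval _ hk hx0 hVx hs0,
      w.adicValuation_eq_exp_neg_ord hx0, ← exp_nsmul, ← exp_nsmul, ← exp_sub]
    congr 1
    simp only [nsmul_eq_mul]
    ring
  exact ((val_eq_exp_iff w).mp h1).2.symm

theorem ord_eq_one_of_gen {x : F} (hx0 : x ≠ 0)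
    (hgen : ∀ y : F, ∃ r s : Polynomial k, y = Polynomial.aeval x r / Polynomial.aeval x s)
    (w : Place k F) (hw : 0 < w.ord x) : w.ord x = 1 := by
  obtain ⟨f, hf0, hf⟩ := exists_ord_eq w 1
  obtain ⟨j, hj⟩ := exists_ord_eq_mul (k := k) hx0 hgen hf0
  have h4 := hj w hw
  rw [hf] at h4
  have := Int.eq_one_or_neg_one_of_mul_eq_one' h4.symm
  omega

theorem eq_of_gen {x : F} (hx0 : x ≠ 0)
    (hgen : ∀ y : F, ∃ r s : Polynomial k, y = Polynomial.aeval x r / Polynomial.aeval x s)
    (w w' : Place k F) (hw : 0 < w.ord x) (hw' : 0 < w'.ord x) : w = w' := by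
  apply Place.ext
  ext y
  rcases eq_or_ne y 0 with rfl | hy
  · simp
  obtain ⟨j, hj⟩ := exists_ord_eq_mul (k := k) hx0 hgen hy
  rw [mem_iff_ord w hy, mem_iff_ord w' hy, hj w hw, hj w' hw', ord_eq_one_of_gen hx0 hgen w hw,
    ord_eq_one_of_gen hx0 hgen w' hw']

end Zero

end Fermat.Agent.Curves
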