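import Fermat.Agent.Curves.Degree

/-!
# The fundamental identity and the norm formula
-/

set_option autoImplicit false
set_option linter.style.haveILetI false

noncomputable section

namespace Fermat.Agent.Curves

open AlgebraicCurve IntermediateField WithZero

variable {k F F' : Type*} [Field k] [Field F] [Field F'] [Algebra k F]
    [Algebra k F'] [Algebra F F'] [IsScalarTower k F F'] [IsAlgClosed k]

theorem transcendental_of_ord_ne_zero {v : Place k F} {x : F} (hx : v.ord x ≠ 0) :
    Transcendental k x := by
  rcases transcendental_or (k := k) x with h | ⟨c, rfl⟩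
  · exact h
  · exact absurd (ord_algebraMap v c) hx

variable [IsFunctionField k F] [IsFunctionField k F'] [FiniteDimensional F F']

section normlemmas

variable {F F' : Type*} [Field F] [Field F'] [Algebra F F'] [FiniteDimensional F F']

theorem norm_inv' (f : F') : Algebra.norm F f⁻¹ = (Algebra.norm F f)⁻¹ := by
  rcases eq_or_ne f 0 with rfl | hf
  · rw [inv_zero, Algebra.norm_zero, inv_zero]
  · refine eq_inv_of_mul_eq_one_left ?_
    rw [← map_mul, inv_mul_cancel₀ hf, map_one]

theorem norm_div' (f g : F') : Algebra.norm F (f / g) = Algebra.norm F f / Algebra.norm F g := by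
  rw [div_eq_mul_inv, map_mul, norm_inv', div_eq_mul_inv]

theorem norm_zpow' (f : F') (n : ℤ) : Algebra.norm F (f ^ n) = Algebra.norm F f ^ n := by
  obtain ⟨m, rfl | rfl⟩ := n.eq_nat_or_neg
  · rw [zpow_natCast, zpow_natCast, map_pow]
  · rw [zpow_neg, zpow_neg, zpow_natCast, zpow_natCast, norm_inv', map_pow]

end normlemmas

omit [IsFunctionField k F] in
theorem degree_pullback_eq (D : Divisor k F) :
    Divisor.degree (Divisor.pullback F' D)
      = D.sum fun v m => m * ∑ w ∈ v.fiber F', (w.ramificationIndex F : ℤ) := by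
  have h : (Divisor.degree (K := k) (F := F')).comp (Divisor.pullback (F := F) F')
      = Finsupp.liftAddHom
      fun v => AddMonoidHom.mulRight (∑ w ∈ v.fiber F', (w.ramificationIndex F : ℤ)) := by
    refine Finsupp.addHom_ext fun v m => ?_
    simp only [AddMonoidHom.coe_comp, Function.comp_apply, Finsupp.liftAddHom_apply_single,
      AddMonoidHom.coe_mulRight]
    rw [Divisor.pullback_single, map_sum, Finset.mul_sum]
    refine Finset.sum_congr rfl fun w _ => ?_
    rw [Divisor.degree_single, deg_eq_one]
    simp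
  have := DFunLike.congr_fun h D
  rw [AddMonoidHom.comp_apply] at this
  rw [this, Finsupp.liftAddHom_apply]
  rfl

theorem poleDivisor_algebraMap (x : F) :
    poleDivisor (k := k) (algebraMap F F' x) = Divisor.pullback F' (poleDivisor x) := by
  ext w
  rw [Divisor.pullback_apply, poleDivisor_apply, poleDivisor_apply, w.ord_restrict (F := F)]
  have : (0 : ℤ) ≤ w.ramificationIndex F := by positivity
  rw [mul_max_of_nonneg _ _ this]
  simp

/-- The fundamental identity. -/
theorem sum_ramificationIndex (v : Place k F) :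
    ∑ w ∈ v.fiber F', w.ramificationIndex F = Module.finrank F F' := by
  obtain ⟨x, hx0, hx⟩ := exists_ord_eq v (-1)
  have hx1 : Transcendental k x := transcendental_of_ord_ne_zero (v := v) (by omega)
  have hx2 : Transcendental k (algebraMap F F' x) := by
    rwa [transcendental_algebraMap_iff (algebraMap F F').injective]
  haveI := finiteDimensional_adjoin_simple hx1
  have h1 := degree_poleDivisor hx2
  rw [finrank_map, poleDivisor_algebraMap, degree_pullback_eq] at h1
  have h2 := degree_poleDivisor hx1
  rw [degree_eq_sum] at h2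
  push_cast at h1
  rw [← h2] at h1
  set D := poleDivisor (k := k) x with hD
  have h3 : ∀ v : Place k F, ∑ w ∈ v.fiber F', (w.ramificationIndex F : ℤ)
      ≤ Module.finrank F F' := by
    intro v
    have := sum_ramificationIndex_le v (v.fiber F') (fun w hw => Place.mem_fiber.mp hw)
    exact_mod_cast this
  have h4 : ∑ v ∈ D.support, D v * ((Module.finrank F F' : ℤ)
      - ∑ w ∈ v.fiber F', (w.ramificationIndex F : ℤ)) = 0 := by
    rw [Finsupp.sum, Finsupp.sum] at h1
    simp_rw [mul_sub]
    rw [Finset.sum_sub_distrib, h1, Finset.mul_sum, sub_eq_zero]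
    exact Finset.sum_congr rfl fun v _ => mul_comm _ _
  have h5 : ∀ v ∈ D.support, 0 ≤ D v * ((Module.finrank F F' : ℤ)
      - ∑ w ∈ v.fiber F', (w.ramificationIndex F : ℤ)) := fun v _ =>
    mul_nonneg (poleDivisor_nonneg x v) (by have := h3 v; omega)
  have hDv : D v = 1 := by
    rw [hD, poleDivisor_apply, hx]
    rfl
  have h6 := (Finset.sum_eq_zero_iff_of_nonneg h5).mp h4 v
    (Finsupp.mem_support_iff.mpr (by rw [hDv]; exact one_ne_zero))
  rw [hDv, one_mul] at h6
  have : ((∑ w ∈ v.fiber F', w.ramificationIndex F : ℕ) : ℤ) = Module.finrank F F' := by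
    push_cast
    omega
  exact_mod_cast this

instance sumRamificationInertia : SumRamificationInertia k F F' where
  sum_ramificationIndex_mul_inertiaDeg v := by
    rw [← sum_ramificationIndex (k := k) (F := F) (F' := F') v]
    push_cast
    refine Finset.sum_congr rfl fun w _ => ?_
    rw [inertiaDeg_eq_one]
    simp

/-! ### The norm formula -/

omit [IsAlgClosed k] [IsFunctionField k F] [IsFunctionField k F'] in
theorem mem_of_isIntegral {v : Place k F} {w : Place k F'} (hw : w.restrict F = v) {f : F'}
    (hf : IsIntegral v.toValuationSubring f) : f ∈ w.toValuationSubring := by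
  subst hw
  let g : (w.restrict F).toValuationSubring →+* w.toValuationSubring :=
    Place.restrictInclusion F w
  letI : Algebra (w.restrict F).toValuationSubring w.toValuationSubring := g.toAlgebra
  haveI : IsScalarTower (w.restrict F).toValuationSubring w.toValuationSubring F' :=
    IsScalarTower.of_algebraMap_eq fun x => rfl
  have hint : IsIntegral w.toValuationSubring f := hf.tower_top
  obtain ⟨y, hy⟩ := IsIntegrallyClosed.isIntegral_iff.mp hint
  exact hy ▸ y.2

omit [IsFunctionField k F] in
theorem isIntegral_iff_forall (v : Place k F) {f : F'} :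
    IsIntegral v.toValuationSubring f ↔
      ∀ w ∈ v.fiber F', f ∈ w.toValuationSubring :=
  ⟨fun h _ hw => mem_of_isIntegral (Place.mem_fiber.mp hw) h,
    fun h => isIntegral_of_forall v fun w hw => h w (Place.mem_fiber.mpr hw)⟩

omit [IsFunctionField k F] in
theorem ord_norm_nonneg (v : Place k F) {f : F'} (hf0 : f ≠ 0)
    (hf : ∀ w ∈ v.fiber F', 0 ≤ w.ord f) : 0 ≤ v.ord (Algebra.norm F f) := by
  have h1 : IsIntegral v.toValuationSubring f := (isIntegral_iff_forall v).mpr fun w hw =>
    (mem_iff_ord w hf0).mpr (hf w hw)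
  have h2 : IsIntegral v.toValuationSubring (Algebra.norm F f) := Algebra.isIntegral_norm F h1
  obtain ⟨y, hy⟩ := IsIntegrallyClosed.isIntegral_iff.mp h2
  rw [← mem_iff_ord v (Algebra.norm_ne_zero_iff.mpr hf0)]
  exact hy ▸ y.2

omit [IsFunctionField k F] in
theorem ord_norm_eq_zero (v : Place k F) {f : F'} (hf0 : f ≠ 0)
    (hf : ∀ w ∈ v.fiber F', w.ord f = 0) : v.ord (Algebra.norm F f) = 0 := by
  have h1 := ord_norm_nonneg v hf0 (fun w hw => (hf w hw).ge)
  have h2 := ord_norm_nonneg v (inv_ne_zero hf0) (fun w hw => by rw [w.ord_inv, hf w hw]; simp)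
  rw [norm_inv', v.ord_inv] at h2
  omega

omit [IsFunctionField k F] in
theorem ord_norm_pos (v : Place k F) {f : F'} (hf0 : f ≠ 0)
    (hf : ∀ w ∈ v.fiber F', 0 ≤ w.ord f) (hpos : ∃ w ∈ v.fiber F', 0 < w.ord f) :
    0 < v.ord (Algebra.norm F f) := by
  have h1 : IsIntegral v.toValuationSubring f := (isIntegral_iff_forall v).mpr fun w hw =>
    (mem_iff_ord w hf0).mpr (hf w hw)
  have h0 := ord_norm_nonneg v hf0 hf
  refine lt_of_le_of_ne h0 fun hzero => ?_
  set R := v.toValuationSubring with hR
  set P := minpoly R f with hP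
  have hPF : minpoly F f = P.map (algebraMap R F) :=
    minpoly.isIntegrallyClosed_eq_field_fractions' F h1
  have hint : IsIntegral F f := Algebra.IsIntegral.isIntegral f
  have hnorm : Algebra.norm F f
      = ((-1) ^ (IntermediateField.adjoin.powerBasis hint).dim *
        (algebraMap R F (P.coeff 0))) ^ Module.finrank F⟮f⟯ F' := by
    rw [Algebra.norm_eq_norm_adjoin]
    congr 1
    conv_lhs => rw [← IntermediateField.adjoin.powerBasis_gen hint]
    rw [Algebra.PowerBasis.norm_gen_eq_coeff_zero_minpoly,
      IntermediateField.adjoin.powerBasis_gen hint, IntermediateField.minpoly_gen, hPF,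
      Polynomial.coeff_map]
  set a : R := P.coeff 0 with ha
  have ha0 : algebraMap R F a ≠ 0 := by
    intro h
    rw [h, mul_zero, zero_pow (Module.finrank_pos).ne'] at hnorm
    exact hf0 (Algebra.norm_eq_zero_iff.mp hnorm)
  have hord : v.ord (algebraMap R F a) = 0 := by
    rw [hnorm, ord_pow, v.ord_mul (pow_ne_zero _ (neg_ne_zero.mpr one_ne_zero)) ha0,
      ord_pow, ord_neg, v.ord_one, mul_zero, zero_add] at hzero
    have h2 : (0 : ℤ) < Module.finrank F⟮f⟯ F' := by exact_mod_cast Module.finrank_pos
    rcases mul_eq_zero.mp hzero.symm with h | h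
    · omega
    · exact h
  have hainv : (algebraMap R F a)⁻¹ ∈ R := by
    refine (mem_iff_ord v (inv_ne_zero ha0)).mpr ?_
    rw [v.ord_inv, hord]
    simp
  have hPf : Polynomial.aeval f P = 0 := minpoly.aeval R f
  rw [← Polynomial.divX_mul_X_add P, map_add, map_mul, Polynomial.aeval_X,
    Polynomial.aeval_C] at hPf
  set q := Polynomial.aeval f P.divX with hq
  have hqint : IsIntegral R q :=
    (Algebra.adjoin_le (S := integralClosure R F') (by
      rw [Set.singleton_subset_iff]
      exact h1))
      (Polynomial.aeval_mem_adjoin_singleton R f)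
  have hfinv : f⁻¹ = -(q * algebraMap R F' ⟨(algebraMap R F a)⁻¹, hainv⟩) := by
    have h3 : algebraMap R F' a * algebraMap R F' ⟨(algebraMap R F a)⁻¹, hainv⟩ = 1 := by
      rw [← map_mul]
      have : a * ⟨(algebraMap R F a)⁻¹, hainv⟩ = 1 := Subtype.ext (mul_inv_cancel₀ ha0)
      rw [this, map_one]
    rw [inv_eq_iff_eq_inv]
    refine eq_inv_of_mul_eq_one_left ?_
    have h4 : q * f = -algebraMap R F' a := by
      rw [← ha] at hPf
      linear_combination hPf
    linear_combination (-algebraMap R F' ⟨(algebraMap R F a)⁻¹, hainv⟩) * h4 + h3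
  have hfint : IsIntegral R f⁻¹ := by
    rw [hfinv]
    exact (hqint.mul isIntegral_algebraMap).neg
  obtain ⟨w, hw, hwpos⟩ := hpos
  have h5 := (isIntegral_iff_forall v).mp hfint w hw
  rw [mem_iff_ord w (inv_ne_zero hf0), w.ord_inv] at h5
  omega

/-- **The norm formula.** -/
theorem ord_norm (v : Place k F) {f : F'} (hf0 : f ≠ 0) :
    v.ord (Algebra.norm F f) = ∑ w ∈ v.fiber F', w.ord f := by
  classical
  -- elements with prescribed orders
  have hex : ∀ w : Place k F', ∃ g : F', g ≠ 0 ∧ ∀ w' ∈ v.fiber F',
      w'.ord g = if w' = w then 1 else 0 := fun w =>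
    exists_ord_eq_finset (v.fiber F') _
  choose g hg0 hg using hex
  set c : Place k F' → ℤ := fun w => v.ord (Algebra.norm F (g w)) with hc
  have hcpos : ∀ w ∈ v.fiber F', 1 ≤ c w := by
    intro w hw
    have := ord_norm_pos v (hg0 w) (fun w' hw' => by rw [hg w w' hw']; split_ifs <;> simp)
      ⟨w, hw, by rw [hg w w hw]; simp⟩
    simp only [hc]
    omega
  have hprod0 : ∀ f : F', (∏ w ∈ v.fiber F', g w ^ (w.ord f)) ≠ 0 := fun f =>
    Finset.prod_ne_zero_iff.mpr fun w _ => zpow_ne_zero _ (hg0 w)
  have hordprod : ∀ (f : F') (S : Finset (Place k F')), ∀ u : Place k F',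
      u.ord (∏ w ∈ S, g w ^ (w.ord f)) = ∑ w ∈ S, w.ord f * u.ord (g w) := by
    intro f S u
    induction S using Finset.induction_on with
    | empty => simp
    | insert w S hw ih =>
      rw [Finset.prod_insert hw, Finset.sum_insert hw, u.ord_mul (zpow_ne_zero _ (hg0 w))
        (Finset.prod_ne_zero_iff.mpr fun w _ => zpow_ne_zero _ (hg0 w)), ih, u.ord_zpow]
  have hordprod' : ∀ (f : F') (S : Finset (Place k F')),
      v.ord (Algebra.norm F (∏ w ∈ S, g w ^ (w.ord f))) = ∑ w ∈ S, w.ord f * c w := by
    intro f S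
    induction S using Finset.induction_on with
    | empty => simp
    | insert w S hw ih =>
      rw [Finset.prod_insert hw, Finset.sum_insert hw, map_mul,
        v.ord_mul (Algebra.norm_ne_zero_iff.mpr (zpow_ne_zero _ (hg0 w)))
        (Algebra.norm_ne_zero_iff.mpr (Finset.prod_ne_zero_iff.mpr
          fun w _ => zpow_ne_zero _ (hg0 w))), ih, norm_zpow', v.ord_zpow]
  have hmain : ∀ f : F', f ≠ 0 →
      v.ord (Algebra.norm F f) = ∑ w ∈ v.fiber F', w.ord f * c w := by
    intro f hf0
    have h1 : v.ord (Algebra.norm F (f / ∏ w ∈ v.fiber F', g w ^ (w.ord f))) = 0 := by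
      apply ord_norm_eq_zero v (div_ne_zero hf0 (hprod0 f))
      intro u hu
      rw [ord_div u hf0 (hprod0 f), hordprod, Finset.sum_eq_single_of_mem u hu]
      · rw [hg u u hu, if_pos rfl]
        ring
      · intro w _ hwu
        rw [hg w u hu, if_neg (Ne.symm hwu), mul_zero]
    rw [norm_div', ord_div v (Algebra.norm_ne_zero_iff.mpr hf0)
      (Algebra.norm_ne_zero_iff.mpr (hprod0 f)), hordprod'] at h1
    omega
  -- the coefficients are all equal to one
  obtain ⟨t, ht0, ht⟩ := exists_ord_eq v 1
  have h2 := hmain (algebraMap F F' t) (by simpa using ht0)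
  rw [Algebra.norm_algebraMap, ord_pow, ht, mul_one] at h2
  have h3 : ∑ w ∈ v.fiber F', w.ord (algebraMap F F' t) * (c w - 1) = 0 := by
    simp_rw [mul_sub, mul_one]
    rw [Finset.sum_sub_distrib, ← h2, sub_eq_zero, ← sum_ramificationIndex (F' := F') v]
    push_cast
    refine Finset.sum_congr rfl fun w hw => ?_
    rw [w.ord_restrict (F := F), Place.mem_fiber.mp hw, ht, mul_one]
  have hram : ∀ w ∈ v.fiber F', 0 < w.ord (algebraMap F F' t) := by
    intro w hw
    rw [w.ord_restrict (F := F), Place.mem_fiber.mp hw, ht, mul_one]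
    exact_mod_cast w.ramificationIndex_pos (F := F)
  have h4 := (Finset.sum_eq_zero_iff_of_nonneg fun w hw => mul_nonneg (hram w hw).le
    (by have := hcpos w hw; omega)).mp h3
  rw [hmain f hf0]
  refine Finset.sum_congr rfl fun w hw => ?_
  have h5 := h4 w hw
  rcases mul_eq_zero.mp h5 with h | h
  · have := hram w hw
    omega
  · have : c w = 1 := by omega
    rw [this, mul_one]

theorem pushforward_apply_eq (D : Divisor k F') (v : Place k F) :
    Divisor.pushforward F D v = ∑ w ∈ v.fiber F', D w := by
  classical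
  have h : (Finsupp.applyAddHom v).comp (Divisor.pushforward (K := k) (F' := F') F)
      = ∑ w ∈ v.fiber F', Finsupp.applyAddHom w := by
    refine Finsupp.addHom_ext fun u m => ?_
    rw [AddMonoidHom.comp_apply, Divisor.pushforward_single, inertiaDeg_eq_one]
    simp only [Finsupp.applyAddHom_apply, Nat.cast_one, mul_one]
    rw [AddMonoidHom.finsetSum_apply]
    simp only [Finsupp.applyAddHom_apply]
    by_cases hu : u.restrict F = v
    · rw [hu, Finsupp.single_eq_same, Finset.sum_eq_single_of_mem u (Place.mem_fiber.mpr hu)]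
      · rw [Finsupp.single_eq_same]
      · intro w _ hwu
        rw [Finsupp.single_eq_of_ne hwu]
    · rw [Finsupp.single_eq_of_ne (Ne.symm hu), Finset.sum_eq_zero]
      intro w hw
      have : w ≠ u := by
        rintro rfl
        exact hu (Place.mem_fiber.mp hw)
      rw [Finsupp.single_eq_of_ne this]
  have := DFunLike.congr_fun h D
  rw [AddMonoidHom.comp_apply, AddMonoidHom.finsetSum_apply] at this
  exact this

variable (k F F') in
theorem pushforwardNormFormula : Divisor.PushforwardNormFormula k F F' := by
  intro f hf0 D hD v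
  rw [pushforward_apply_eq, ord_norm v hf0]
  exact Finset.sum_congr rfl fun w _ => hD w

end Fermat.Agent.Curves
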