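import Fermat.Agent.Curves.Approx

/-!
# The fundamental inequality `∑ e(w|v) ≤ [F' : F]`
-/

set_option autoImplicit false
set_option linter.style.haveILetI false

noncomputable section

namespace Fermat.Agent.Curves

open AlgebraicCurve IntermediateField WithZero

variable {k F F' : Type*} [Field k] [Field F] [Field F'] [Algebra k F]
    [Algebra k F'] [Algebra F F'] [IsScalarTower k F F'] [Algebra.IsIntegral F F']

/-- Index set for the local bases at the places of `S` -/
abbrev LocIdx (F : Type*) {k F' : Type*} [Field k] [Field F] [Field F'] [Algebra k F']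
    [Algebra F F'] (S : Finset (Place k F')) : Type _ :=
  (w : S) × Fin (w.1.ramificationIndex F)

/-- `b` is a family of elements adapted to the places in `S`. -/
def IsAdapted (S : Finset (Place k F')) (b : LocIdx F S → F') : Prop :=
  ∀ p : LocIdx F S, b p ≠ 0 ∧ p.1.1.ord (b p) = (p.2 : ℕ) ∧
    ∀ w ∈ S, w ≠ p.1.1 → w.ord (b p) = w.ramificationIndex F

omit [Algebra k F] [IsScalarTower k F F'] [Algebra.IsIntegral F F'] in
variable (F) in
theorem exists_adapted (S : Finset (Place k F')) : ∃ b : LocIdx F S → F', IsAdapted S b := by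
  classical
  have : ∀ p : LocIdx F S, ∃ f : F', f ≠ 0 ∧ ∀ w ∈ S, w.ord f =
      (if w = p.1.1 then ((p.2 : ℕ) : ℤ) else w.ramificationIndex F) := fun p =>
    exists_ord_eq_finset S _
  choose b hb0 hb using this
  refine ⟨b, fun p => ⟨hb0 p, ?_, fun w hw hne => ?_⟩⟩
  · rw [hb p _ p.1.2, if_pos rfl]
  · rw [hb p w hw, if_neg hne]

theorem key (v : Place k F) (S : Finset (Place k F')) (hS : ∀ w ∈ S, w.restrict F = v)
    (b : LocIdx F S → F') (hb : IsAdapted S b) (φ : LocIdx F S → F) (hφ : ∃ p, φ p ≠ 0) :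
    ∃ p : LocIdx F S, φ p ≠ 0 ∧ (∀ q, φ q = 0 ∨ v.ord (φ p) ≤ v.ord (φ q)) ∧
      (∑ q, algebraMap F F' (φ q) * b q) ≠ 0 ∧
      p.1.1.ord (∑ q, algebraMap F F' (φ q) * b q)
        = p.1.1.ramificationIndex F * v.ord (φ p) + (p.2 : ℕ) := by
  classical
  obtain ⟨p, hp, hmin⟩ := Finset.exists_min_image (Finset.univ.filter fun q => φ q ≠ 0)
    (fun q : LocIdx F S => toLex (v.ord (φ q), (q.2 : ℕ)))
    (by obtain ⟨p, hp⟩ := hφ; exact ⟨p, by simpa using hp⟩)
  have hp0 : φ p ≠ 0 := by simpa using hp
  have hlex : ∀ q, φ q ≠ 0 → v.ord (φ p) < v.ord (φ q) ∨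
      (v.ord (φ p) = v.ord (φ q) ∧ (p.2 : ℕ) ≤ (q.2 : ℕ)) := by
    intro q hq
    have := hmin q (by simpa using hq)
    rw [Prod.Lex.toLex_le_toLex] at this
    exact this
  have hle : ∀ q, φ q = 0 ∨ v.ord (φ p) ≤ v.ord (φ q) := by
    intro q
    rcases eq_or_ne (φ q) 0 with h | h
    · exact Or.inl h
    · rcases hlex q h with h | h
      · exact Or.inr h.le
      · exact Or.inr h.1.le
  -- orders of the terms at the place of `p`
  set w := p.1.1 with hw
  set e := w.ramificationIndex F with he
  have hpe : ((p.2 : ℕ) : ℤ) < e := by exact_mod_cast p.2.2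
  have hres : w.restrict F = v := hS w p.1.2
  have hordmap : ∀ f : F, w.ord (algebraMap F F' f) = e * v.ord f := by
    intro f
    rw [w.ord_restrict, hres]
  have hmap0 : ∀ {f : F}, f ≠ 0 → algebraMap F F' f ≠ 0 := fun h => by simpa using h
  have hterm0 : algebraMap F F' (φ p) * b p ≠ 0 := mul_ne_zero (hmap0 hp0) (hb p).1
  have hterm : w.ord (algebraMap F F' (φ p) * b p) = e * v.ord (φ p) + (p.2 : ℕ) := by
    rw [w.ord_mul (hmap0 hp0) (hb p).1, hordmap, (hb p).2.1]
  have hother : ∀ q ∈ Finset.univ.erase p, w.adicValuation (algebraMap F F' (φ q) * b q)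
      < w.adicValuation (algebraMap F F' (φ p) * b p) := by
    intro q hq
    have hqp : q ≠ p := Finset.ne_of_mem_erase hq
    rw [w.adicValuation_eq_exp_neg_ord hterm0]
    rcases eq_or_ne (φ q) 0 with hq0 | hq0
    · simp [hq0]
    rw [w.adicValuation_eq_exp_neg_ord (mul_ne_zero (hmap0 hq0) (hb q).1), exp_lt_exp, hterm,
      w.ord_mul (hmap0 hq0) (hb q).1, hordmap]
    have h1 := hlex q hq0
    have hepos : (0 : ℤ) ≤ e := by positivity
    by_cases hqw : q.1.1 = w
    · have hordb : w.ord (b q) = (q.2 : ℕ) := by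
        rw [← hqw]
        exact (hb q).2.1
      rw [hordb]
      rcases h1 with h1 | ⟨h1, h2⟩
      · have : (e : ℤ) * (v.ord (φ p) + 1) ≤ e * v.ord (φ q) :=
          mul_le_mul_of_nonneg_left (by omega) hepos
        have h3 : (e : ℤ) * (v.ord (φ p) + 1) = e * v.ord (φ p) + e := by ring
        omega
      · have h3 : (p.2 : ℕ) ≠ (q.2 : ℕ) := by
          intro h
          apply hqp
          obtain ⟨⟨w1, hw1⟩, i1⟩ := p
          obtain ⟨⟨w2, hw2⟩, i2⟩ := q
          simp only at hqw hw
          subst hqw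
          have : i1 = i2 := Fin.ext h
          rw [this]
        rw [← h1]
        omega
    · have hordb : w.ord (b q) = e := (hb q).2.2 w p.1.2 (Ne.symm hqw)
      rw [hordb]
      have h4 : v.ord (φ p) ≤ v.ord (φ q) := by
        rcases h1 with h1 | h1
        · exact h1.le
        · exact h1.1.le
      have : (e : ℤ) * v.ord (φ p) ≤ e * v.ord (φ q) :=
        mul_le_mul_of_nonneg_left h4 hepos
      omega
  have hsum : w.adicValuation (∑ q ∈ Finset.univ.erase p, algebraMap F F' (φ q) * b q)
      < w.adicValuation (algebraMap F F' (φ p) * b p) :=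
    Valuation.map_sum_lt _ (w.adicValuation_ne_zero hterm0) hother
  have hval : w.adicValuation (∑ q, algebraMap F F' (φ q) * b q)
      = w.adicValuation (algebraMap F F' (φ p) * b p) := by
    rw [← Finset.add_sum_erase _ _ (Finset.mem_univ p)]
    exact Valuation.map_add_eq_of_lt_left _ hsum
  have hne : (∑ q, algebraMap F F' (φ q) * b q) ≠ 0 := by
    rw [← (w.adicValuation).ne_zero_iff, hval]
    exact w.adicValuation_ne_zero hterm0
  have h5 : w.ord (∑ q, algebraMap F F' (φ q) * b q) = w.ord (algebraMap F F' (φ p) * b p) := by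
    unfold Place.ord
    rw [hval]
  exact ⟨p, hp0, hle, hne, h5.trans hterm⟩

theorem linearIndependent_adapted (v : Place k F) (S : Finset (Place k F'))
    (hS : ∀ w ∈ S, w.restrict F = v)
    (b : LocIdx F S → F') (hb : IsAdapted S b) : LinearIndependent F b := by
  rw [Fintype.linearIndependent_iff]
  intro φ hφ
  by_contra! hne
  obtain ⟨p, -, -, h, -⟩ := key v S hS b hb φ hne
  apply h
  rw [← hφ]
  exact Finset.sum_congr rfl fun q _ => by rw [Algebra.smul_def]

omit [Algebra k F] [IsScalarTower k F F'] [Algebra.IsIntegral F F'] in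
theorem card_locIdx (S : Finset (Place k F')) :
    Fintype.card (LocIdx F S) = ∑ w ∈ S, w.ramificationIndex F := by
  rw [Fintype.card_sigma]
  simp only [Fintype.card_fin]
  exact Finset.sum_coe_sort S (fun w => w.ramificationIndex F)

/-- The fundamental inequality. -/
theorem sum_ramificationIndex_le [FiniteDimensional F F'] (v : Place k F)
    (S : Finset (Place k F')) (hS : ∀ w ∈ S, w.restrict F = v) :
    ∑ w ∈ S, w.ramificationIndex F ≤ Module.finrank F F' := by
  obtain ⟨b, hb⟩ := exists_adapted F S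
  have := (linearIndependent_adapted v S hS b hb).fintype_card_le_finrank
  rwa [card_locIdx] at this

end Fermat.Agent.Curves
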