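import Fermat.Agent.Curves.Fundamental

/-!
# Towers of function fields; cartesian squares
-/

set_option autoImplicit false
set_option linter.style.haveILetI false

noncomputable section

namespace Fermat.Agent.Curves

open AlgebraicCurve IntermediateField WithZero

section Tower

variable {k F F' F'' : Type*} [Field k] [Field F] [Field F'] [Field F''] [Algebra k F]
    [Algebra k F'] [Algebra k F''] [Algebra F F'] [Algebra F' F''] [Algebra F F'']
    [IsScalarTower k F F'] [IsScalarTower k F' F''] [IsScalarTower k F F'']
    [IsScalarTower F F' F''] [Algebra.IsIntegral F F'] [Algebra.IsIntegral F' F'']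
    [Algebra.IsIntegral F F'']

theorem restrict_restrict (w : Place k F'') :
    (w.restrict F').restrict F = w.restrict F := by
  apply Place.ext
  ext x
  rw [Place.mem_restrict_iff, Place.mem_restrict_iff, Place.mem_restrict_iff,
    ← IsScalarTower.algebraMap_apply F F' F'']

variable (F F') in
theorem ramificationIndex_mul (w : Place k F'') :
    w.ramificationIndex F = w.ramificationIndex F' * (w.restrict F').ramificationIndex F := by
  obtain ⟨x, hx0, hx⟩ := exists_ord_eq (w.restrict F) 1
  have h1 := w.ord_restrict (F := F) x
  have h2 := w.ord_restrict (F := F') (algebraMap F F' x)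
  rw [← IsScalarTower.algebraMap_apply F F' F'', (w.restrict F').ord_restrict (F := F) x,
    restrict_restrict, hx, h1, hx] at h2
  have h3 : (w.ramificationIndex F : ℤ)
      = ((w.ramificationIndex F' * (w.restrict F').ramificationIndex F : ℕ) : ℤ) := by
    push_cast
    linarith
  exact_mod_cast h3

theorem pullback_pullback [HasPrincipalDivisors k F'] [HasPrincipalDivisors k F'']
    (D : Divisor k F) :
    Divisor.pullback F'' (Divisor.pullback F' D) = Divisor.pullback F'' D := by
  ext w
  rw [Divisor.pullback_apply, Divisor.pullback_apply, Divisor.pullback_apply,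
    restrict_restrict, ramificationIndex_mul F F' w]
  push_cast
  ring

variable [IsAlgClosed k] [IsFunctionField k F] [IsFunctionField k F'] [IsFunctionField k F'']

theorem pushforward_single' (w : Place k F') (n : ℤ) :
    Divisor.pushforward F (Finsupp.single w n) = Finsupp.single (w.restrict F) n := by
  rw [Divisor.pushforward_single, inertiaDeg_eq_one, Nat.cast_one, mul_one]

theorem pushforward_pushforward (D : Divisor k F'') :
    Divisor.pushforward F (Divisor.pushforward F' D) = Divisor.pushforward F D := by
  have h : (Divisor.pushforward (K := k) (F' := F') F).comp (Divisor.pushforward (F' := F'') F')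
      = Divisor.pushforward F := by
    refine Finsupp.addHom_ext fun w m => ?_
    rw [AddMonoidHom.comp_apply, pushforward_single', pushforward_single', pushforward_single',
      restrict_restrict]
  exact DFunLike.congr_fun h D

end Tower

section PushPull

variable {k F F' : Type*} [Field k] [Field F] [Field F'] [Algebra k F]
    [Algebra k F'] [Algebra F F'] [IsScalarTower k F F'] [IsAlgClosed k]
    [IsFunctionField k F] [IsFunctionField k F'] [FiniteDimensional F F']

theorem pushforward_pullback (D : Divisor k F) :
    Divisor.pushforward F (Divisor.pullback F' D) = Module.finrank F F' • D := by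
  ext v
  rw [pushforward_apply_eq, Finsupp.smul_apply, nsmul_eq_mul, ← sum_ramificationIndex (F' := F') v,
    Nat.cast_sum, Finset.sum_mul]
  refine Finset.sum_congr rfl fun w hw => ?_
  rw [Divisor.pullback_apply, Place.mem_fiber.mp hw]

theorem pullback_divisorOf (x : F) :
    Divisor.pullback F' (divisorOf (k := k) x) = divisorOf (algebraMap F F' x) := by
  ext w
  rw [Divisor.pullback_apply, divisorOf_apply, divisorOf_apply, w.ord_restrict (F := F)]

theorem pushforward_divisorOf {x : F'} (hx : x ≠ 0) :
    Divisor.pushforward F (divisorOf (k := k) x) = divisorOf (Algebra.norm F x) := by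
  ext v
  rw [pushforward_apply_eq, divisorOf_apply, ord_norm v hx]
  rfl

end PushPull

section Square

open Classical in
/-- The places above both `w₁` and `w₂`. -/
def commonFiber {k F₁ F₂ : Type*} (Z : Type*) [Field k] [Field F₁] [Field F₂] [Field Z]
    [Algebra k F₁] [Algebra k F₂] [Algebra k Z] [Algebra F₁ Z] [Algebra F₂ Z]
    [IsScalarTower k F₁ Z] [IsScalarTower k F₂ Z] [Algebra.IsIntegral F₁ Z]
    [Algebra.IsIntegral F₂ Z] [HasPrincipalDivisors k Z] (w₁ : Place k F₁) (w₂ : Place k F₂) :
    Finset (Place k Z) := (w₁.fiber Z).filter fun W => W.restrict F₂ = w₂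

variable {k F F₁ F₂ Z : Type*} [Field k] [Field F] [Field F₁] [Field F₂] [Field Z]
    [Algebra k F] [Algebra k F₁] [Algebra k F₂] [Algebra k Z]
    [Algebra F F₁] [Algebra F F₂] [Algebra F Z] [Algebra F₁ Z] [Algebra F₂ Z]
    [IsScalarTower k F F₁] [IsScalarTower k F F₂] [IsScalarTower k F Z] [IsScalarTower k F₁ Z]
    [IsScalarTower k F₂ Z] [IsScalarTower F F₁ Z] [IsScalarTower F F₂ Z] [IsAlgClosed k]
    [IsFunctionField k F] [IsFunctionField k F₁] [IsFunctionField k F₂] [IsFunctionField k Z]
    [FiniteDimensional F F₁] [FiniteDimensional F F₂] [FiniteDimensional F Z]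
    [FiniteDimensional F₁ Z] [FiniteDimensional F₂ Z]

/-- Local indices in a cartesian square: if the norm from `Z` to `F₁` restricted to `F₂` is the
norm from `F₂` to `F`, then for places `w₁, w₂` above the same place `v`,
`∑_{W | w₁, w₂} e(W|w₂) = e(w₁|v)`. -/
theorem sum_ramificationIndex_square
    (hnorm : ∀ f : F₂, Algebra.norm F₁ (algebraMap F₂ Z f)
      = algebraMap F F₁ (Algebra.norm F f))
    (w₁ : Place k F₁) (w₂ : Place k F₂) (h : w₁.restrict F = w₂.restrict F) :
    ∑ W ∈ commonFiber Z w₁ w₂, W.ramificationIndex F₂ = w₁.ramificationIndex F := by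
  classical
  set v := w₁.restrict F with hv
  have hw₂ : w₂ ∈ v.fiber F₂ := Place.mem_fiber.mpr h.symm
  obtain ⟨f, hf0, hf⟩ := exists_ord_eq_finset (v.fiber F₂) (fun w => if w = w₂ then 1 else 0)
  have h1 := congrArg w₁.ord (hnorm f)
  rw [ord_norm w₁ (by simpa using hf0), w₁.ord_restrict (F := F), ← hv, ord_norm v hf0,
    Finset.sum_eq_single_of_mem w₂ hw₂ (fun w hw hne => by rw [hf w hw, if_neg hne]),
    hf w₂ hw₂, if_pos rfl, mul_one] at h1
  have h2 : ∀ W ∈ w₁.fiber Z, W.ord (algebraMap F₂ Z f)
      = if W.restrict F₂ = w₂ then (W.ramificationIndex F₂ : ℤ) else 0 := by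
    intro W hW
    have h3 : W.restrict F₂ ∈ v.fiber F₂ := by
      rw [Place.mem_fiber, restrict_restrict, hv, ← Place.mem_fiber.mp hW, restrict_restrict]
    rw [W.ord_restrict (F := F₂), hf _ h3]
    split_ifs <;> simp
  rw [Finset.sum_congr rfl h2, ← Finset.sum_filter] at h1
  unfold commonFiber
  exact_mod_cast h1

/-- Push-pull for cartesian squares. -/
theorem pushforward_pullback_square
    (hnorm : ∀ f : F₂, Algebra.norm F₁ (algebraMap F₂ Z f)
      = algebraMap F F₁ (Algebra.norm F f)) (D : Divisor k F₂) :
    Divisor.pushforward F₁ (Divisor.pullback Z D) =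
      Divisor.pullback F₁ (Divisor.pushforward F D) := by
  classical
  have h : (Divisor.pushforward (K := k) (F' := Z) F₁).comp (Divisor.pullback (F := F₂) Z)
      = (Divisor.pullback (F := F) F₁).comp (Divisor.pushforward (K := k) (F' := F₂) F) := by
    refine Finsupp.addHom_ext fun w₂ m => ?_
    rw [AddMonoidHom.comp_apply, AddMonoidHom.comp_apply, pushforward_single']
    ext w₁
    rw [pushforward_apply_eq]
    by_cases hw : w₁.restrict F = w₂.restrict F
    · rw [Divisor.pullback_single_apply_of_restrict_eq hw,
        ← sum_ramificationIndex_square (Z := Z) hnorm w₁ w₂ hw, Nat.cast_sum, Finset.mul_sum,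
        commonFiber, Finset.sum_filter]
      refine Finset.sum_congr rfl fun W _ => ?_
      split_ifs with hW
      · rw [Divisor.pullback_single_apply_of_restrict_eq hW]
      · rw [Divisor.pullback_single_apply_of_restrict_ne hW]
    · rw [Divisor.pullback_single_apply_of_restrict_ne hw]
      refine Finset.sum_eq_zero fun W hW => ?_
      apply Divisor.pullback_single_apply_of_restrict_ne
      rintro rfl
      apply hw
      rw [restrict_restrict, ← Place.mem_fiber.mp hW, restrict_restrict]
  exact DFunLike.congr_fun h D

end Square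

end Fermat.Agent.Curves
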